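import Fermat.Agent.S48.E1.Plan

/-!
# S48 / E1 — piece `E1-gauss`: finite Fourier analysis

`stmtE1Gauss : StmtE1Gauss`.  For an odd Dirichlet character `ψ` modulo a prime `ℓ`, with
`χ = ψ⁻¹`, `e = ZMod.stdAddChar` and the Gauss sum `G = ∑_b χ(b) e(b) ≠ 0`:

* `∑_b χ(b) e(b t) = ψ(t) G` for every `t` (`e1g_shift`);
* `n ≥ 1`: `∑_b χ(b) (e(-b k) - e(b k)) = (ψ(-k) - ψ(k)) G = -2 ψ(k) G`;
* `n = 0`: `π cot(π b/ℓ) = π i (u + 1)/(u - 1)`, `u = e(b)`, and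
  `(u + 1)/(u - 1) = 1 + (2/ℓ) ∑_{j<ℓ} j u^j` for `u^ℓ = 1`, `u ≠ 1`.
-/

set_option autoImplicit false

open Complex
open scoped Real

noncomputable section

namespace Fermat.Agent.S48

/-- `(u - 1) ∑_{j<n} j u^j = n u^n - u ∑_{j<n} u^j` -/
theorem e1g_sum_id_mul_pow (u : ℂ) (n : ℕ) :
    (u - 1) * ∑ j ∈ Finset.range n, (j : ℂ) * u ^ j =
      n * u ^ n - u * ∑ j ∈ Finset.range n, u ^ j := by
  induction n with
  | zero => simp
  | succ n ih =>
    rw [Finset.sum_range_succ, Finset.sum_range_succ, mul_add, ih]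
    push_cast
    ring

/-- `(u - 1) ∑_{j<n} j u^j = n` for `u^n = 1`, `u ≠ 1` -/
theorem e1g_sum_root (u : ℂ) (n : ℕ) (hu : u ^ n = 1) (hu1 : u ≠ 1) :
    (u - 1) * ∑ j ∈ Finset.range n, (j : ℂ) * u ^ j = n := by
  have hgeom : ∑ j ∈ Finset.range n, u ^ j = 0 := by
    have h := geom_sum_mul u n
    rw [hu, sub_self] at h
    exact (mul_eq_zero.1 h).resolve_right (sub_ne_zero.2 hu1)
  rw [e1g_sum_id_mul_pow, hu, hgeom]
  simp

/-- `π cot(π x) = π i (1 + (2/n) ∑_{j<n} j u^j)` for `u = exp(2 π i x)`, `u^n = 1`, `u ≠ 1` -/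
theorem e1g_cot (x : ℂ) (n : ℕ) (hn : n ≠ 0) (hu : cexp (2 * π * I * x) ^ n = 1)
    (hu1 : cexp (2 * π * I * x) ≠ 1) :
    π * Complex.cot (π * x) =
      π * I * (1 + 2 / (n : ℂ) * ∑ j ∈ Finset.range n, (j : ℂ) * cexp (2 * π * I * x) ^ j) := by
  have hS := e1g_sum_root _ n hu hu1
  have hne : cexp (2 * π * I * x) - 1 ≠ 0 := sub_ne_zero.2 hu1
  have hne' : 1 - cexp (2 * π * I * x) ≠ 0 := sub_ne_zero.2 (Ne.symm hu1)
  have hn' : (n : ℂ) ≠ 0 := Nat.cast_ne_zero.2 hn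
  have hS' : ∑ j ∈ Finset.range n, (j : ℂ) * cexp (2 * π * I * x) ^ j =
      n / (cexp (2 * π * I * x) - 1) := by
    rw [eq_div_iff hne, mul_comm]
    exact hS
  rw [Complex.cot_pi_eq_exp_ratio, hS']
  have hI : I ≠ 0 := I_ne_zero
  generalize cexp (2 * π * I * x) = u at *
  have h2 : 2 / (n : ℂ) * (n / (u - 1)) = 2 / (u - 1) := by
    field_simp
  rw [h2]
  have h3 : (u + 1) / (I * (1 - u)) = I * (1 + 2 / (u - 1)) := by
    rw [div_eq_iff (mul_ne_zero hI hne')]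
    have h4 : I * (1 + 2 / (u - 1)) * (I * (1 - u)) = I * I * ((1 + 2 / (u - 1)) * (1 - u)) := by
      ring
    have h5 : (1 + 2 / (u - 1)) * (1 - u) = -(u + 1) := by
      field_simp
      ring
    rw [h4, I_mul_I, h5]
    ring
  rw [h3]
  ring

section Char

variable {ℓ : ℕ} [NeZero ℓ]

/-- `exp(2 π i b k / ℓ)` is the value of the standard additive character at `b k` -/
theorem e1g_exp_pos (b : ZMod ℓ) (k : ℕ) :
    cexp (2 * π * I * ((((b.val : ℕ) : ℤ) : ℂ)) * (k : ℂ) / (ℓ : ℂ)) =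
      ZMod.stdAddChar (N := ℓ) (b * (k : ZMod ℓ)) := by
  have h := ZMod.stdAddChar_coe (N := ℓ) ((b.val : ℤ) * (k : ℤ))
  have h2 : (((b.val : ℤ) * (k : ℤ) : ℤ) : ZMod ℓ) = b * (k : ZMod ℓ) := by
    push_cast
    rw [ZMod.natCast_zmod_val]
  rw [h2] at h
  rw [h]
  congr 1
  push_cast
  ring

theorem e1g_exp_neg (b : ZMod ℓ) (k : ℕ) :
    cexp (-(2 * π * I * ((((b.val : ℕ) : ℤ) : ℂ)) * (k : ℂ) / (ℓ : ℂ))) =
      ZMod.stdAddChar (N := ℓ) (b * (-(k : ZMod ℓ))) := by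
  rw [Complex.exp_neg, e1g_exp_pos, mul_neg, AddChar.map_neg_eq_inv]

theorem e1g_exp_one (b : ZMod ℓ) :
    cexp (2 * π * I * (((b.val : ℕ) : ℂ) / (ℓ : ℂ))) = ZMod.stdAddChar (N := ℓ) b := by
  have h := e1g_exp_pos b 1
  simp only [Nat.cast_one, mul_one] at h
  rw [← h]
  congr 1
  push_cast
  ring

/-- `∑_b χ(b) e(b t) = χ⁻¹(t) G` -/
theorem e1g_shift [Fact ℓ.Prime] (χ : DirichletCharacter ℂ ℓ) (hχ : χ ≠ 1) (t : ZMod ℓ) :
    ∑ b : ZMod ℓ, χ b * ZMod.stdAddChar (N := ℓ) (b * t) =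
      χ⁻¹ t * gaussSum χ (ZMod.stdAddChar (N := ℓ)) := by
  by_cases ht : IsUnit t
  · have h := gaussSum_mulShift_eq χ (ZMod.stdAddChar (N := ℓ)) ht.unit
    rw [← ht.unit_spec] at *
    rw [← h, gaussSum]
    refine Finset.sum_congr rfl fun b _ => ?_
    rw [AddChar.mulShift_apply, mul_comm b]
  · have ht0 : t = 0 := by
      by_contra h0
      exact ht (IsUnit.mk0 t h0)
    rw [MulChar.map_nonunit _ ht, zero_mul, ht0]
    simp only [mul_zero, AddChar.map_zero_eq_one, mul_one]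
    exact MulChar.sum_eq_zero_of_ne_one hχ

end Char

/-- piece `E1-gauss` -/
theorem stmtE1Gauss : StmtE1Gauss := by
  intro ℓ _ hℓ ψ hψ
  have : Fact ℓ.Prime := ⟨hℓ⟩
  have hℓ0 : (ℓ : ℂ) ≠ 0 := Nat.cast_ne_zero.2 hℓ.ne_zero
  have hχm1 : ψ⁻¹ (-1) = -1 := by
    rw [MulChar.inv_apply_eq_inv', hψ]
    norm_num
  have hχ : ψ⁻¹ ≠ 1 := by
    intro h
    have h1 : ψ⁻¹ (-1) = 1 := by
      rw [h]
      exact MulChar.one_apply (isUnit_one.neg)
    rw [hχm1] at h1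
    norm_num at h1
  have hsh : ∀ t : ZMod ℓ, ∑ b : ZMod ℓ, ψ⁻¹ b * ZMod.stdAddChar (N := ℓ) (b * t) =
      ψ t * gaussSum ψ⁻¹ (ZMod.stdAddChar (N := ℓ)) := by
    intro t
    rw [e1g_shift ψ⁻¹ hχ t, inv_inv]
  refine ⟨gaussSum ψ⁻¹ (ZMod.stdAddChar (N := ℓ)), ?_, ?_⟩
  · refine gaussSum_ne_zero_of_nontrivial ?_ hχ (ZMod.isPrimitive_stdAddChar ℓ)
    rw [ZMod.card]
    exact hℓ0
  · intro n
    by_cases hn : n = 0
    · subst hn
      simp only [e1Coeff, e1IntCoeff, if_true]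
      -- each summand
      have hterm : ∀ b : ZMod ℓ, ψ⁻¹ b * (π * Complex.cot (π * ((((b.val : ℕ) : ℤ) : ℂ)) / (ℓ : ℂ))) =
          ψ⁻¹ b * (π * I * (1 + 2 / (ℓ : ℂ) *
            ∑ j : ZMod ℓ, ((j.val : ℕ) : ℂ) * ZMod.stdAddChar (N := ℓ) (b * j))) := by
        intro b
        by_cases hb : b = 0
        · rw [hb, MulChar.map_nonunit _ (by simp : ¬ IsUnit (0 : ZMod ℓ)), zero_mul, zero_mul]
        · congr 1
          have hu1 : cexp (2 * π * I * (((b.val : ℕ) : ℂ) / (ℓ : ℂ))) ≠ 1 := by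
            rw [e1g_exp_one]
            intro h
            apply hb
            apply ZMod.injective_stdAddChar (N := ℓ)
            rw [h, AddChar.map_zero_eq_one]
          have hu : cexp (2 * π * I * (((b.val : ℕ) : ℂ) / (ℓ : ℂ))) ^ ℓ = 1 := by
            rw [e1g_exp_one, ← AddChar.map_nsmul_eq_pow]
            simp
          have h := e1g_cot (((b.val : ℕ) : ℂ) / (ℓ : ℂ)) ℓ hℓ.ne_zero hu hu1
          have harg : π * ((((b.val : ℕ) : ℤ) : ℂ)) / (ℓ : ℂ) = π * (((b.val : ℕ) : ℂ) / (ℓ : ℂ)) := by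
            push_cast
            ring
          rw [harg, h, e1g_exp_one]
          congr 3
          -- sum over range vs sum over ZMod
          have hsum : ∑ j : ZMod ℓ, ((j.val : ℕ) : ℂ) * ZMod.stdAddChar (N := ℓ) (b * j) =
              ∑ j : ZMod ℓ, ((j.val : ℕ) : ℂ) * ZMod.stdAddChar (N := ℓ) b ^ j.val := by
            refine Finset.sum_congr rfl fun j _ => ?_
            rw [← AddChar.map_nsmul_eq_pow, nsmul_eq_mul, ZMod.natCast_zmod_val, mul_comm j b]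
          rw [hsum]
          obtain ⟨m, rfl⟩ := Nat.exists_eq_succ_of_ne_zero hℓ.ne_zero
          exact (Fin.sum_univ_eq_sum_range
            (fun j => (j : ℂ) * ZMod.stdAddChar (N := m + 1) b ^ j) (m + 1)).symm
      rw [Finset.sum_congr rfl fun b _ => hterm b]
      simp only [mul_add, mul_one, Finset.sum_add_distrib, ← Finset.sum_mul]
      rw [MulChar.sum_eq_zero_of_ne_one hχ, zero_mul, zero_add]
      -- swap the sums
      have hswap : ∑ b : ZMod ℓ, ψ⁻¹ b * (π * I * (2 / (ℓ : ℂ) *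
            ∑ j : ZMod ℓ, ((j.val : ℕ) : ℂ) * ZMod.stdAddChar (N := ℓ) (b * j))) =
          π * I * (2 / (ℓ : ℂ)) * ∑ j : ZMod ℓ, ((j.val : ℕ) : ℂ) *
            ∑ b : ZMod ℓ, ψ⁻¹ b * ZMod.stdAddChar (N := ℓ) (b * j) := by
        simp only [Finset.mul_sum]
        rw [Finset.sum_comm]
        refine Finset.sum_congr rfl fun j _ => Finset.sum_congr rfl fun b _ => ?_
        ring
      rw [hswap]
      simp only [hsh, Finset.mul_sum]
      refine Finset.sum_congr rfl fun j _ => ?_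
      ring
    · simp only [e1Coeff, e1IntCoeff, if_neg hn]
      have hterm : ∀ b : ZMod ℓ, ψ⁻¹ b * (2 * π * I * ∑ k ∈ n.divisors,
          (cexp (-(2 * π * I * ((((b.val : ℕ) : ℤ) : ℂ)) * (k : ℂ) / (ℓ : ℂ))) -
            cexp (2 * π * I * ((((b.val : ℕ) : ℤ) : ℂ)) * (k : ℂ) / (ℓ : ℂ)))) =
          2 * π * I * ∑ k ∈ n.divisors,
            (ψ⁻¹ b * ZMod.stdAddChar (N := ℓ) (b * (-(k : ZMod ℓ))) -
              ψ⁻¹ b * ZMod.stdAddChar (N := ℓ) (b * (k : ZMod ℓ))) := by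
        intro b
        simp only [e1g_exp_neg, e1g_exp_pos, Finset.mul_sum]
        refine Finset.sum_congr rfl fun k _ => ?_
        ring
      rw [Finset.sum_congr rfl fun b _ => hterm b, ← Finset.mul_sum, Finset.sum_comm]
      simp only [Finset.sum_sub_distrib, hsh]
      have hneg : ∀ k : ℕ, ψ (-(k : ZMod ℓ)) = -ψ (k : ZMod ℓ) := by
        intro k
        rw [← neg_one_mul, map_mul, hψ, neg_one_mul]
      simp only [hneg]
      have hL : (∑ x ∈ n.divisors, -ψ (x : ZMod ℓ) * gaussSum ψ⁻¹ (ZMod.stdAddChar (N := ℓ)) -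
          ∑ x ∈ n.divisors, ψ (x : ZMod ℓ) * gaussSum ψ⁻¹ (ZMod.stdAddChar (N := ℓ))) =
          -(2 * gaussSum ψ⁻¹ (ZMod.stdAddChar (N := ℓ))) * ∑ d ∈ n.divisors, ψ (d : ZMod ℓ) := by
        rw [← Finset.sum_sub_distrib, Finset.mul_sum]
        refine Finset.sum_congr rfl fun k _ => ?_
        ring
      rw [hL]
      field_simp

end Fermat.Agent.S48
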