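import Mathlib

/-!
# S48 / E1: the Lambert series `A(u,q)` and the function `C(x,τ)`

* `e1b_lamA u q = ∑_{m ≥ 1} u qᵐ / (1 - u qᵐ)`
* `e1b_cotC x τ = π cot(π x) - 2πi (A(e(x), e(τ)) - A(e(-x), e(τ)))`, the Eisenstein-summed series
  `∑_m ∑_n 1/(x + mτ + n)`.
* `e1b_cotC_add_one`, `e1b_cotC_add_tau`: `C(x+1,τ) = C(x,τ)`, `C(x+τ,τ) = C(x,τ) - 2πi`.
-/

set_option autoImplicit false

open Complex Filter Topology
open scoped Real

namespace Fermat.Agent.S48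

/-- the general term of the Lambert series -/
noncomputable def e1b_lamTerm (u q : ℂ) (m : ℕ) : ℂ := u * q ^ (m + 1) / (1 - u * q ^ (m + 1))

/-- `A(u,q) = ∑_{m ≥ 1} u qᵐ / (1 - u qᵐ)` -/
noncomputable def e1b_lamA (u q : ℂ) : ℂ := ∑' m : ℕ, e1b_lamTerm u q m

theorem e1b_norm_lamTerm_le {u q : ℂ} {m : ℕ} (h : ‖u * q ^ (m + 1)‖ ≤ 1 / 2) :
    ‖e1b_lamTerm u q m‖ ≤ 2 * ‖u‖ * ‖q‖ ^ (m + 1) := by
  unfold e1b_lamTerm
  have h1 : (1 : ℝ) / 2 ≤ ‖1 - u * q ^ (m + 1)‖ := by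
    have := norm_sub_norm_le (1 : ℂ) (u * q ^ (m + 1))
    rw [norm_one] at this
    linarith
  rw [norm_div]
  have hpos : (0 : ℝ) < ‖1 - u * q ^ (m + 1)‖ := by linarith
  rw [div_le_iff₀ hpos]
  have h2 : ‖u * q ^ (m + 1)‖ = ‖u‖ * ‖q‖ ^ (m + 1) := by rw [norm_mul, norm_pow]
  have h3 : 0 ≤ ‖u‖ * ‖q‖ ^ (m + 1) := by positivity
  rw [h2]
  nlinarith

theorem e1b_eventually_norm_mul_pow_le (u : ℂ) {q : ℂ} (hq : ‖q‖ < 1) :
    ∀ᶠ m : ℕ in atTop, ‖u * q ^ (m + 1)‖ ≤ 1 / 2 := by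
  have h1 : Tendsto (fun m : ℕ => ‖u‖ * ‖q‖ ^ (m + 1)) atTop (𝓝 (‖u‖ * 0)) :=
    ((tendsto_pow_atTop_nhds_zero_of_lt_one (norm_nonneg q) hq).comp
      (tendsto_add_atTop_nat 1)).const_mul _
  rw [mul_zero] at h1
  filter_upwards [h1.eventually (Iio_mem_nhds (show (0 : ℝ) < 1 / 2 by norm_num))] with m hm
  rw [norm_mul, norm_pow]
  exact le_of_lt hm

theorem e1b_summable_lamTerm (u : ℂ) {q : ℂ} (hq : ‖q‖ < 1) : Summable (e1b_lamTerm u q) := by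
  have hg : Summable fun m : ℕ => 2 * ‖u‖ * ‖q‖ ^ (m + 1) := by
    have := (summable_geometric_of_lt_one (norm_nonneg q) hq).mul_left (2 * ‖u‖ * ‖q‖)
    refine this.congr fun m => ?_
    ring
  refine Summable.of_norm_bounded_eventually_nat hg ?_
  filter_upwards [e1b_eventually_norm_mul_pow_le u hq] with m hm
  exact e1b_norm_lamTerm_le hm

theorem e1b_lamTerm_mul_q (u q : ℂ) (m : ℕ) : e1b_lamTerm (u * q) q m = e1b_lamTerm u q (m + 1) := by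
  unfold e1b_lamTerm
  rw [show u * q * q ^ (m + 1) = u * q ^ (m + 1 + 1) by ring]

/-- `A(uq, q) = A(u,q) - uq/(1-uq)` -/
theorem e1b_lamA_mul_q (u : ℂ) {q : ℂ} (hq : ‖q‖ < 1) :
    e1b_lamA (u * q) q = e1b_lamA u q - u * q / (1 - u * q) := by
  unfold e1b_lamA
  rw [(e1b_summable_lamTerm u hq).tsum_eq_zero_add]
  simp only [e1b_lamTerm_mul_q]
  simp [e1b_lamTerm]

/-- `A(u/q, q) = A(u,q) + u/(1-u)` -/
theorem e1b_lamA_div_q (u : ℂ) {q : ℂ} (hq : ‖q‖ < 1) (hq0 : q ≠ 0) :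
    e1b_lamA (u / q) q = e1b_lamA u q + u / (1 - u) := by
  have := e1b_lamA_mul_q (u / q) hq
  rw [div_mul_cancel₀ u hq0] at this
  rw [this]
  ring

/-- a bound for `A(u,q)` when `‖u‖ ‖q‖ ≤ 1/2` and `‖q‖ ≤ 1/2` -/
theorem e1b_norm_lamA_le {u q : ℂ} (hq : ‖q‖ ≤ 1 / 2) (huq : ‖u‖ * ‖q‖ ≤ 1 / 2) :
    ‖e1b_lamA u q‖ ≤ 4 * (‖u‖ * ‖q‖) := by
  have hq1 : ‖q‖ < 1 := by linarith
  have hterm : ∀ m : ℕ, ‖e1b_lamTerm u q m‖ ≤ 2 * (‖u‖ * ‖q‖) * ‖q‖ ^ m := by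
    intro m
    have h1 : ‖u * q ^ (m + 1)‖ ≤ 1 / 2 := by
      rw [norm_mul, norm_pow, pow_succ, ← mul_assoc, mul_comm (‖u‖ * _) _, ← mul_assoc,
        mul_comm ‖q‖ ‖u‖]
      have : ‖q‖ ^ m ≤ 1 := pow_le_one₀ (norm_nonneg q) hq1.le
      have h0 : 0 ≤ ‖u‖ * ‖q‖ := by positivity
      nlinarith
    refine (e1b_norm_lamTerm_le h1).trans (le_of_eq ?_)
    ring
  have hs : Summable fun m : ℕ => 2 * (‖u‖ * ‖q‖) * ‖q‖ ^ m :=
    (summable_geometric_of_lt_one (norm_nonneg q) hq1).mul_left _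
  unfold e1b_lamA
  refine (norm_tsum_le_tsum_norm (e1b_summable_lamTerm u hq1).norm).trans ?_
  refine ((e1b_summable_lamTerm u hq1).norm.tsum_le_tsum hterm hs).trans ?_
  rw [tsum_mul_left, tsum_geometric_of_lt_one (norm_nonneg q) hq1]
  have h0 : 0 ≤ ‖u‖ * ‖q‖ := by positivity
  have h2 : (1 - ‖q‖)⁻¹ ≤ 2 := by
    rw [inv_le_comm₀ (by linarith) (by norm_num)]
    linarith
  nlinarith

/-- `C(x,τ)`: the Eisenstein-summed series `∑_m ∑_n 1/(x + mτ + n)` -/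
noncomputable def e1b_cotC (x τ : ℂ) : ℂ :=
  π * cot (π * x) - 2 * π * I *
    (e1b_lamA (cexp (2 * π * I * x)) (cexp (2 * π * I * τ)) -
      e1b_lamA (cexp (-(2 * π * I * x))) (cexp (2 * π * I * τ)))

/-- `π cot(πx) = -πi - 2πi u/(1-u)`, `u = e(x) ≠ 1` -/
theorem e1b_pi_mul_cot_eq (x : ℂ) (hx : cexp (2 * π * I * x) ≠ 1) :
    π * cot (π * x) = -(π * I) - 2 * π * I *
      (cexp (2 * π * I * x) / (1 - cexp (2 * π * I * x))) := by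
  rw [Complex.cot_pi_eq_exp_ratio]
  generalize cexp (2 * π * I * x) = e at hx ⊢
  have h1 : (1 : ℂ) - e ≠ 0 := sub_ne_zero.mpr (Ne.symm hx)
  have hI : (I : ℂ) ≠ 0 := I_ne_zero
  rw [mul_comm I (1 - e), ← div_div, div_I]
  field_simp
  ring

/-- `π cot(πx) = πi + 2πi u⁻¹/(1-u⁻¹)`, `u = e(x) ≠ 1` -/
theorem e1b_pi_mul_cot_eq' (x : ℂ) (hx : cexp (2 * π * I * x) ≠ 1) :
    π * cot (π * x) = π * I + 2 * π * I *
      (cexp (-(2 * π * I * x)) / (1 - cexp (-(2 * π * I * x)))) := by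
  rw [e1b_pi_mul_cot_eq x hx, Complex.exp_neg]
  have h0 : cexp (2 * π * I * x) ≠ 0 := Complex.exp_ne_zero _
  generalize cexp (2 * π * I * x) = e at hx h0 ⊢
  have h1 : (1 : ℂ) - e ≠ 0 := sub_ne_zero.mpr (Ne.symm hx)
  have h3 : e - 1 ≠ 0 := sub_ne_zero.mpr hx
  have h2 : (1 : ℂ) - e⁻¹ = (e - 1) / e := by field_simp
  rw [h2]
  field_simp
  ring

theorem e1b_exp_two_pi_I_add_one (x : ℂ) : cexp (2 * π * I * (x + 1)) = cexp (2 * π * I * x) := by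
  rw [mul_add, Complex.exp_add, mul_one, Complex.exp_two_pi_mul_I, mul_one]

theorem e1b_cotC_add_one (x τ : ℂ) : e1b_cotC (x + 1) τ = e1b_cotC x τ := by
  unfold e1b_cotC
  have h1 : cexp (2 * π * I * (x + 1)) = cexp (2 * π * I * x) := e1b_exp_two_pi_I_add_one x
  have h2 : cexp (-(2 * π * I * (x + 1))) = cexp (-(2 * π * I * x)) := by
    rw [Complex.exp_neg, Complex.exp_neg, h1]
  have h3 : cot (π * (x + 1)) = cot (π * x) := by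
    rw [Complex.cot_pi_eq_exp_ratio, Complex.cot_pi_eq_exp_ratio, h1]
  rw [h1, h2, h3]

theorem e1b_norm_exp_two_pi_I_lt_one_of_im_pos {τ : ℂ} (hτ : 0 < τ.im) :
    ‖cexp (2 * π * I * τ)‖ < 1 := by
  rw [Complex.norm_exp]
  have : (2 * π * I * τ).re = -(2 * π * τ.im) := by
    simp [Complex.mul_re, Complex.mul_im]
  rw [this, Real.exp_lt_one_iff]
  have := Real.pi_pos
  nlinarith

/-- `C(x+τ,τ) = C(x,τ) - 2πi` -/
theorem e1b_cotC_add_tau {x τ : ℂ} (hτ : 0 < τ.im) (hx : cexp (2 * π * I * x) ≠ 1)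
    (hx' : cexp (2 * π * I * (x + τ)) ≠ 1) :
    e1b_cotC (x + τ) τ = e1b_cotC x τ - 2 * π * I := by
  unfold e1b_cotC
  have hq := e1b_norm_exp_two_pi_I_lt_one_of_im_pos hτ
  set q := cexp (2 * π * I * τ) with hqdef
  set u := cexp (2 * π * I * x) with hudef
  have hq0 : q ≠ 0 := Complex.exp_ne_zero _
  have h1 : cexp (2 * π * I * (x + τ)) = u * q := by
    rw [mul_add, Complex.exp_add]
  have h2 : cexp (-(2 * π * I * (x + τ))) = cexp (-(2 * π * I * x)) / q := by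
    rw [mul_add, neg_add, Complex.exp_add, Complex.exp_neg (2 * π * I * τ), div_eq_mul_inv]
  rw [e1b_pi_mul_cot_eq (x + τ) hx', e1b_pi_mul_cot_eq' x hx, h1, h2, e1b_lamA_mul_q u hq,
    e1b_lamA_div_q _ hq hq0]
  ring

end Fermat.Agent.S48
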