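import Mathlib
import Fermat.Agent.S48.Plan2

/-!
# S48 / E1: the weight one Eisenstein series on `Γ₁(ℓ)` — interface (definitions and statements)

Route (helper56): division values of the Weierstrass `ζ`-function, NO division by theta functions.
For `(a, b) ∈ ℤ² ∖ N ℤ²` let `z₀ = (a τ + b)/N` and
`Z_{(a,b)}(τ) = ζ(z₀; ℤτ + ℤ) − (a η₁(τ) + b η₂(τ))/N`.
Summing the (absolutely convergent) lattice sum of `ζ` by rows and using Legendre's relation gives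
`Z_{(a,b)}(τ) = 2πi a/N + ∑_{m ∈ ℤ} (π cot(π (z₀ − m τ)) + π cot(π m τ)) = e1Zrow N a b τ`.

* lattice sum  ⇒ `Z_{(a,b)}(γ τ) = (c τ + d) Z_{(a,b)γ}(τ)` and periodicity in `(a, b)` mod `N`
  (`StmtE1Law`, `StmtE1Per`);
* row formula  ⇒ holomorphic, bounded at `i∞` (`StmtE1RowMDiff`, `StmtE1RowBdd`) and the
  `q`-expansion for `a = 0` (`StmtE1RowQ`);
* `E = (ℓ / 2πi G) ∑_b ψ⁻¹(b) Z_{(0,b)}` has nebentypus `ψ` and `q`-expansion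
  `∑_j j ψ(j) − 2ℓ ∑_n (∑_{d ∣ n} ψ(d)) qⁿ` (`StmtE1Gauss`), which for `ψ = ω⁻¹` is integral with
  constant term `≡ −1` and all other coefficients `≡ 0` mod `𝔪` (`StmtE1Teich`).
-/

set_option autoImplicit false

open Complex CongruenceSubgroup
open UpperHalfPlane hiding I
open scoped Real MatrixGroups Manifold

noncomputable section

namespace Fermat.Agent.S48

/-- the torsion point `(a τ + b)/N` -/
def e1Pt (N : ℕ) (a b : ℤ) (τ : ℂ) : ℂ := ((a : ℂ) * τ + (b : ℂ)) / (N : ℂ)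

/-- the `m`-th row `π cot(π (z₀ − m τ)) + π cot(π m τ)` (for `m = 0` the second term is `0`,
because `Complex.cot 0 = 0` in Lean) -/
def e1Row (N : ℕ) (a b : ℤ) (τ : ℂ) (m : ℤ) : ℂ :=
  π * Complex.cot (π * (e1Pt N a b τ - (m : ℂ) * τ)) + π * Complex.cot (π * ((m : ℂ) * τ))

/-- the division value `Z_{(a,b)}(τ)` of the Weierstrass `ζ`-function, in row form -/
def e1Zrow (N : ℕ) (a b : ℤ) (τ : ℂ) : ℂ :=
  2 * π * I * (a : ℂ) / (N : ℂ) + ∑' m : ℤ, e1Row N a b τ m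

/-- the `q`-expansion coefficients of `Z_{(0,b)}` -/
def e1Coeff (N : ℕ) (b : ℤ) (n : ℕ) : ℂ :=
  if n = 0 then π * Complex.cot (π * (b : ℂ) / (N : ℂ))
  else 2 * π * I * ∑ k ∈ n.divisors,
    (cexp (-(2 * π * I * (b : ℂ) * (k : ℂ) / (N : ℂ))) - cexp (2 * π * I * (b : ℂ) * (k : ℂ) / (N : ℂ)))

/-- the `q`-expansion coefficients of the integrally normalised Eisenstein series with
nebentypus `ψ`: `∑_j j ψ(j)` and `−2ℓ ∑_{d ∣ n} ψ(d)` -/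
def e1IntCoeff (ℓ : ℕ) [NeZero ℓ] (ψ : DirichletCharacter ℂ ℓ) (n : ℕ) : ℂ :=
  if n = 0 then ∑ j : ZMod ℓ, ((j.val : ℕ) : ℂ) * ψ j
  else -(2 * (ℓ : ℂ)) * ∑ d ∈ n.divisors, ψ ((d : ℕ) : ZMod ℓ)

/-! ### The pieces -/

/-- (E1-law) the transformation law of the division values under `SL₂(ℤ)`. -/
def StmtE1Law : Prop :=
  ∀ (N : ℕ) [NeZero N] (a b : ℤ), ¬ ((N : ℤ) ∣ a ∧ (N : ℤ) ∣ b) → ∀ (γ : SL(2, ℤ)) (τ : ℍ),
    e1Zrow N a b ((γ • τ : ℍ) : ℂ) =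
      ((γ 1 0 : ℂ) * (τ : ℂ) + (γ 1 1 : ℂ)) *
        e1Zrow N (a * γ 0 0 + b * γ 1 0) (a * γ 0 1 + b * γ 1 1) (τ : ℂ)

/-- (E1-per) the division values only depend on `(a, b)` modulo `N`. -/
def StmtE1Per : Prop :=
  ∀ (N : ℕ) [NeZero N] (a b k l : ℤ), ¬ ((N : ℤ) ∣ a ∧ (N : ℤ) ∣ b) → ∀ τ : ℍ,
    e1Zrow N (a + N * k) (b + N * l) (τ : ℂ) = e1Zrow N a b (τ : ℂ)

/-- (E1-mdiff) the division values are holomorphic on the upper half plane. -/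
def StmtE1RowMDiff : Prop :=
  ∀ (N : ℕ) [NeZero N] (a b : ℤ), 0 ≤ a → a < N → ¬ ((N : ℤ) ∣ a ∧ (N : ℤ) ∣ b) →
    MDifferentiable 𝓘(ℂ) 𝓘(ℂ) (fun τ : ℍ => e1Zrow N a b (τ : ℂ))

/-- (E1-bdd) the division values are bounded at `i∞`. -/
def StmtE1RowBdd : Prop :=
  ∀ (N : ℕ) [NeZero N] (a b : ℤ), 0 ≤ a → a < N → ¬ ((N : ℤ) ∣ a ∧ (N : ℤ) ∣ b) →
    IsBoundedAtImInfty (fun τ : ℍ => e1Zrow N a b (τ : ℂ))

/-- (E1-q) the `q`-expansion of `Z_{(0,b)}`. -/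
def StmtE1RowQ : Prop :=
  ∀ (N : ℕ) [NeZero N] (b : ℤ), ¬ (N : ℤ) ∣ b → ∀ τ : ℍ,
    HasSum (fun n : ℕ => e1Coeff N b n * cexp (2 * π * I * (τ : ℂ)) ^ n) (e1Zrow N 0 b (τ : ℂ))

/-- (E1-gauss) finite Fourier analysis: the `ψ⁻¹`-combination of the coefficients of the
`Z_{(0,b)}` is a nonzero multiple (Gauss sum) of the integral coefficients. -/
def StmtE1Gauss : Prop :=
  ∀ (ℓ : ℕ) [NeZero ℓ], ℓ.Prime → ∀ ψ : DirichletCharacter ℂ ℓ, ψ (-1) = -1 →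
    ∃ G : ℂ, G ≠ 0 ∧ ∀ n : ℕ,
      ∑ b : ZMod ℓ, ψ⁻¹ b * e1Coeff ℓ ((b.val : ℕ) : ℤ) n =
        2 * π * I * G / (ℓ : ℂ) * e1IntCoeff ℓ ψ n

/-- (E1-teich) the inverse `ψ = ω⁻¹` of the Teichmüller character of `𝔪`: it is odd, its values
are algebraic integers with `a ψ(a) ≡ 1` mod `𝔪`, and the integral coefficients are algebraic
integers, the constant one a unit mod `𝔪`, the others in `𝔪`. -/
def StmtE1Teich : Prop :=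
  ∀ (ℓ : ℕ) [NeZero ℓ], ℓ.Prime → 3 ≤ ℓ → ∀ 𝔪 : Ideal Zb, 𝔪.IsMaximal → ((ℓ : ℕ) : Zb) ∈ 𝔪 →
    ∃ (ψ : DirichletCharacter ℂ ℓ) (c : ℕ → Zb), ψ (-1) = -1 ∧
      (∀ a : ℕ, ¬ ℓ ∣ a → ∃ w : Zb, (w : ℂ) = ψ (a : ZMod ℓ) ∧ (a : Zb) * w - 1 ∈ 𝔪) ∧
      (∀ n : ℕ, (c n : ℂ) = e1IntCoeff ℓ ψ n) ∧ c 0 ∉ 𝔪 ∧ ∀ n : ℕ, n ≠ 0 → c n ∈ 𝔪

/-- (E1-asm) the assembly. -/
def StmtE1OfPieces : Prop :=
  StmtE1Law → StmtE1Per → StmtE1RowMDiff → StmtE1RowBdd → StmtE1RowQ → StmtE1Gauss →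
    StmtE1Teich → StmtE1

end Fermat.Agent.S48
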