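import Mathlib
import Fermat.Agent.S48.E1.Plan
import Fermat.Agent.S48.E1.Lambert

/-!
# S48 / E1-bdd, part 1: the rows of `e1Zrow` in Lambert form

For `0 ≤ a < N`, `Im τ > 0`, `z₀ = (aτ + b)/N`, `u = e(z₀)`, `q = e(τ)`:

* `e1b_row_pos`:  `e1Row N a b τ (n+1) = 2πi (u⁻¹qⁿ⁺¹/(1-u⁻¹qⁿ⁺¹) - qⁿ⁺¹/(1-qⁿ⁺¹))`
* `e1b_row_neg`:  `e1Row N a b τ (-(n+1)) = -2πi (u qⁿ⁺¹/(1-u qⁿ⁺¹) - qⁿ⁺¹/(1-qⁿ⁺¹))`
* `e1b_hasSum_row`: `HasSum (e1Row N a b τ) (e1b_cotC z₀ τ)`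
* `e1b_e1Zrow_eq`:  `e1Zrow N a b τ = 2πi a/N + e1b_cotC z₀ τ`
-/

set_option autoImplicit false
set_option linter.unusedSectionVars false

open Complex Filter Topology
open scoped Real

namespace Fermat.Agent.S48

theorem e1b_im_e1Pt (N : ℕ) (a b : ℤ) (τ : ℂ) :
    (e1Pt N a b τ).im = (a : ℝ) / (N : ℝ) * τ.im := by
  unfold e1Pt
  rw [show ((a : ℂ) * τ + (b : ℂ)) / (N : ℂ) = ((a : ℂ) * τ + (b : ℂ)) * (((N : ℝ)⁻¹ : ℝ) : ℂ) by
    rw [div_eq_mul_inv]; push_cast; rfl]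
  rw [Complex.im_mul_ofReal]
  simp [Complex.add_im, Complex.mul_im]
  ring

theorem e1b_norm_exp (x : ℂ) : ‖cexp (2 * π * I * x)‖ = Real.exp (-(2 * π * x.im)) := by
  rw [Complex.norm_exp]
  congr 1
  simp [Complex.mul_re, Complex.mul_im]

theorem e1b_norm_exp_neg (x : ℂ) : ‖cexp (-(2 * π * I * x))‖ = Real.exp (2 * π * x.im) := by
  rw [Complex.norm_exp]
  congr 1
  simp [Complex.mul_re, Complex.mul_im]

theorem e1b_exp_ne_one_of_im_ne_zero {x : ℂ} (hx : x.im ≠ 0) : cexp (2 * π * I * x) ≠ 1 := by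
  intro h
  have h1 := e1b_norm_exp x
  rw [h, norm_one] at h1
  have h2 : -(2 * π * x.im) = 0 := by
    have := h1.symm
    rwa [Real.exp_eq_one_iff] at this
  have := Real.pi_pos
  have h3 : x.im = 0 := by nlinarith
  exact hx h3

section Rows

variable (N : ℕ) [NeZero N] (a b : ℤ) {τ : ℂ}

theorem e1b_exp_nat_mul (τ : ℂ) (n : ℕ) :
    cexp (2 * π * I * (((n + 1 : ℕ) : ℂ) * τ)) = cexp (2 * π * I * τ) ^ (n + 1) := by
  rw [← Complex.exp_nat_mul]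
  congr 1
  push_cast
  ring

/-- the rows with positive index -/
theorem e1b_row_pos (hτ : 0 < τ.im) (ha0 : 0 ≤ a) (haN : a < N) (n : ℕ) :
    e1Row N a b τ ((n : ℤ) + 1) = 2 * π * I *
      (e1b_lamTerm (cexp (-(2 * π * I * e1Pt N a b τ))) (cexp (2 * π * I * τ)) n -
        e1b_lamTerm 1 (cexp (2 * π * I * τ)) n) := by
  have hN : (0 : ℝ) < N := Nat.cast_pos.mpr (Nat.pos_of_ne_zero (NeZero.ne N))
  unfold e1Row e1b_lamTerm
  have him : (e1Pt N a b τ - (((n : ℤ) + 1 : ℤ) : ℂ) * τ).im ≠ 0 := by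
    rw [Complex.sub_im, e1b_im_e1Pt]
    have h1 : ((((n : ℤ) + 1 : ℤ) : ℂ) * τ).im = ((n : ℝ) + 1) * τ.im := by
      simp [Complex.mul_im]
    rw [h1]
    have h2 : (a : ℝ) / N < 1 := by
      rw [div_lt_one hN]; exact_mod_cast haN
    have h3 : (0 : ℝ) ≤ n := Nat.cast_nonneg n
    have : (a : ℝ) / N * τ.im - ((n : ℝ) + 1) * τ.im < 0 := by nlinarith
    exact ne_of_lt this
  have him2 : ((((n : ℤ) + 1 : ℤ) : ℂ) * τ).im ≠ 0 := by
    have h1 : ((((n : ℤ) + 1 : ℤ) : ℂ) * τ).im = ((n : ℝ) + 1) * τ.im := by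
      simp [Complex.mul_im]
    rw [h1]
    have h3 : (0 : ℝ) ≤ n := Nat.cast_nonneg n
    positivity
  rw [e1b_pi_mul_cot_eq' _ (e1b_exp_ne_one_of_im_ne_zero him),
    e1b_pi_mul_cot_eq _ (e1b_exp_ne_one_of_im_ne_zero him2)]
  have hq : cexp (2 * π * I * ((((n : ℤ) + 1 : ℤ) : ℂ) * τ)) = cexp (2 * π * I * τ) ^ (n + 1) := by
    rw [← e1b_exp_nat_mul]
    congr 2
  have hu : cexp (-(2 * π * I * (e1Pt N a b τ - (((n : ℤ) + 1 : ℤ) : ℂ) * τ))) =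
      cexp (-(2 * π * I * e1Pt N a b τ)) * cexp (2 * π * I * τ) ^ (n + 1) := by
    rw [← hq, ← Complex.exp_add]
    congr 1
    ring
  rw [hq, hu, one_mul]
  push_cast
  ring

/-- the rows with negative index -/
theorem e1b_row_neg (hτ : 0 < τ.im) (ha0 : 0 ≤ a) (n : ℕ) :
    e1Row N a b τ (-((n : ℤ) + 1)) = -(2 * π * I) *
      (e1b_lamTerm (cexp (2 * π * I * e1Pt N a b τ)) (cexp (2 * π * I * τ)) n -
        e1b_lamTerm 1 (cexp (2 * π * I * τ)) n) := by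
  have hN : (0 : ℝ) < N := Nat.cast_pos.mpr (Nat.pos_of_ne_zero (NeZero.ne N))
  unfold e1Row e1b_lamTerm
  have hcast : ((-((n : ℤ) + 1) : ℤ) : ℂ) = -(((n + 1 : ℕ) : ℂ)) := by push_cast; ring
  rw [hcast]
  have him : (e1Pt N a b τ - -(((n + 1 : ℕ) : ℂ)) * τ).im ≠ 0 := by
    rw [Complex.sub_im, e1b_im_e1Pt]
    have h1 : (-(((n + 1 : ℕ) : ℂ)) * τ).im = -(((n : ℝ) + 1) * τ.im) := by
      simp [Complex.mul_im]
      ring
    rw [h1]
    have h2 : (0 : ℝ) ≤ (a : ℝ) / N := div_nonneg (by exact_mod_cast ha0) hN.le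
    have h3 : (0 : ℝ) ≤ n := Nat.cast_nonneg n
    have : 0 < (a : ℝ) / N * τ.im - -(((n : ℝ) + 1) * τ.im) := by nlinarith
    exact ne_of_gt this
  have him2 : ((((n + 1 : ℕ) : ℂ)) * τ).im ≠ 0 := by
    have h1 : ((((n + 1 : ℕ) : ℂ)) * τ).im = ((n : ℝ) + 1) * τ.im := by
      simp [Complex.mul_im]
    rw [h1]
    have h3 : (0 : ℝ) ≤ n := Nat.cast_nonneg n
    positivity
  have hcot : cot (π * (-(((n + 1 : ℕ) : ℂ)) * τ)) = -cot (π * ((((n + 1 : ℕ) : ℂ)) * τ)) := by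
    rw [show π * (-(((n + 1 : ℕ) : ℂ)) * τ) = -(π * ((((n + 1 : ℕ) : ℂ)) * τ)) by ring]
    simp only [Complex.cot, Complex.cos_neg, Complex.sin_neg, div_neg]
  rw [hcot, mul_neg, e1b_pi_mul_cot_eq _ (e1b_exp_ne_one_of_im_ne_zero him),
    e1b_pi_mul_cot_eq _ (e1b_exp_ne_one_of_im_ne_zero him2)]
  have hq : cexp (2 * π * I * ((((n + 1 : ℕ) : ℂ)) * τ)) = cexp (2 * π * I * τ) ^ (n + 1) :=
    e1b_exp_nat_mul τ n
  have hu : cexp (2 * π * I * (e1Pt N a b τ - -(((n + 1 : ℕ) : ℂ)) * τ)) =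
      cexp (2 * π * I * e1Pt N a b τ) * cexp (2 * π * I * τ) ^ (n + 1) := by
    rw [← hq, ← Complex.exp_add]
    congr 1
    ring
  rw [hq, hu, one_mul]
  ring

theorem e1b_row_zero (τ : ℂ) : e1Row N a b τ 0 = π * cot (π * e1Pt N a b τ) := by
  unfold e1Row
  simp [Complex.cot]

/-- the rows are summable, with sum `C(z₀, τ)` -/
theorem e1b_hasSum_row (hτ : 0 < τ.im) (ha0 : 0 ≤ a) (haN : a < N) :
    HasSum (e1Row N a b τ) (e1b_cotC (e1Pt N a b τ) τ) := by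
  have hq := e1b_norm_exp_two_pi_I_lt_one_of_im_pos hτ
  set q := cexp (2 * π * I * τ) with hqdef
  set u := cexp (2 * π * I * e1Pt N a b τ) with hudef
  set v := cexp (-(2 * π * I * e1Pt N a b τ)) with hvdef
  have h1 : HasSum (fun n : ℕ => e1Row N a b τ ((n : ℤ) + 1))
      (2 * π * I * (e1b_lamA v q - e1b_lamA 1 q)) := by
    have := (((e1b_summable_lamTerm v hq).hasSum.sub
      (e1b_summable_lamTerm 1 hq).hasSum).mul_left (2 * π * I))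
    refine this.congr_fun ?_
    intro n
    exact e1b_row_pos N a b hτ ha0 haN n
  have h2 : HasSum (fun n : ℕ => e1Row N a b τ (-((n : ℤ) + 1)))
      (-(2 * π * I) * (e1b_lamA u q - e1b_lamA 1 q)) := by
    have := (((e1b_summable_lamTerm u hq).hasSum.sub
      (e1b_summable_lamTerm 1 hq).hasSum).mul_left (-(2 * π * I)))
    refine this.congr_fun ?_
    intro n
    exact e1b_row_neg N a b hτ ha0 n
  have h3 := HasSum.of_add_one_of_neg_add_one h1 h2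
  rw [e1b_row_zero] at h3
  convert h3 using 1
  unfold e1b_cotC
  ring

theorem e1b_e1Zrow_eq (hτ : 0 < τ.im) (ha0 : 0 ≤ a) (haN : a < N) :
    e1Zrow N a b τ = 2 * π * I * (a : ℂ) / (N : ℂ) + e1b_cotC (e1Pt N a b τ) τ := by
  unfold e1Zrow
  rw [(e1b_hasSum_row N a b hτ ha0 haN).tsum_eq]

end Rows

end Fermat.Agent.S48
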