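import Mathlib
import Fermat.Agent.S48.E1.RowSum

/-!
# S48 / E1-bdd: the division values `e1Zrow N a b` are holomorphic and bounded at `i∞`

`stmtE1RowMDiff : StmtE1RowMDiff`, `stmtE1RowBdd : StmtE1RowBdd` (statements of `S48/E1/Plan.lean`).
Both are read off from the Lambert form `e1Zrow = 2πi a/N + C(z₀, τ)` (`e1b_e1Zrow_eq`).
-/

set_option autoImplicit false
set_option linter.unusedSectionVars false

open Complex Filter Topology
open UpperHalfPlane hiding I
open scoped Real Manifold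

namespace Fermat.Agent.S48

/-! ### bounds for the Lambert terms -/

theorem e1b_one_sub_ne_zero {w : ℂ} (hw : ‖w‖ < 1) : (1 : ℂ) - w ≠ 0 := by
  intro h
  have : w = 1 := (sub_eq_zero.mp h).symm
  rw [this, norm_one] at hw
  exact lt_irrefl _ hw

theorem e1b_norm_lamTerm_le_pow {u q : ℂ} {m : ℕ} {r : ℝ} (hr0 : 0 ≤ r) (hr : r < 1)
    (h : ‖u * q ^ (m + 1)‖ ≤ r ^ (m + 1)) :
    ‖e1b_lamTerm u q m‖ ≤ r ^ (m + 1) / (1 - r) := by
  unfold e1b_lamTerm
  have h1 : r ^ (m + 1) ≤ r := by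
    calc r ^ (m + 1) ≤ r ^ 1 := pow_le_pow_of_le_one hr0 hr.le (by omega)
      _ = r := pow_one r
  have h2 : 1 - r ≤ ‖1 - u * q ^ (m + 1)‖ := by
    have := norm_sub_norm_le (1 : ℂ) (u * q ^ (m + 1))
    rw [norm_one] at this
    linarith
  have hpos : 0 < 1 - r := by linarith
  rw [norm_div]
  calc ‖u * q ^ (m + 1)‖ / ‖1 - u * q ^ (m + 1)‖
      ≤ r ^ (m + 1) / ‖1 - u * q ^ (m + 1)‖ :=
        div_le_div_of_nonneg_right h (norm_nonneg _)
    _ ≤ r ^ (m + 1) / (1 - r) :=
        div_le_div_of_nonneg_left (pow_nonneg hr0 _) hpos h2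

/-- holomorphy of `z ↦ A(U z, Q z)` -/
theorem e1b_differentiableOn_lamA {U Q : ℂ → ℂ} {s : Set ℂ} (hs : IsOpen s)
    (hU : DifferentiableOn ℂ U s) (hQ : DifferentiableOn ℂ Q s) {r : ℝ} (hr0 : 0 ≤ r)
    (hr : r < 1) (hb : ∀ z ∈ s, ∀ m : ℕ, ‖U z * Q z ^ (m + 1)‖ ≤ r ^ (m + 1)) :
    DifferentiableOn ℂ (fun z => e1b_lamA (U z) (Q z)) s := by
  unfold e1b_lamA
  have hsum : Summable fun m : ℕ => r ^ (m + 1) / (1 - r) := by
    have := ((summable_geometric_of_lt_one hr0 hr).mul_left (r / (1 - r)))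
    refine this.congr fun m => ?_
    rw [pow_succ]
    ring
  refine differentiableOn_tsum_of_summable_norm hsum ?_ hs ?_
  · intro m
    unfold e1b_lamTerm
    refine DifferentiableOn.div (hU.mul (hQ.pow _)) ((differentiableOn_const _).sub
      (hU.mul (hQ.pow _))) ?_
    intro z hz
    refine e1b_one_sub_ne_zero ?_
    refine (hb z hz m).trans_lt ?_
    exact pow_lt_one₀ hr0 hr (by omega)
  · intro m z hz
    exact e1b_norm_lamTerm_le_pow hr0 hr (hb z hz m)

section Main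

variable (N : ℕ) [NeZero N] (a b : ℤ)

theorem e1b_differentiable_e1Pt : Differentiable ℂ (fun z : ℂ => e1Pt N a b z) := by
  unfold e1Pt
  fun_prop

theorem e1b_exp_le_one_half : Real.exp (-(2 * π)) ≤ 1 / 2 := by
  have h1 : (2 : ℝ) ≤ Real.exp (2 * π) := by
    have := Real.add_one_le_exp (2 * π)
    have := Real.pi_gt_three
    linarith
  rw [Real.exp_neg, inv_eq_one_div]
  exact div_le_div_of_nonneg_left zero_le_one (by norm_num) h1

/-- the point `z₀` is not an integer (as witnessed by `e(z₀) ≠ 1`) -/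
theorem e1b_exp_e1Pt_ne_one {τ : ℂ} (hτ : 0 < τ.im) (ha0 : 0 ≤ a) (haN : a < N)
    (hab : ¬ ((N : ℤ) ∣ a ∧ (N : ℤ) ∣ b)) : cexp (2 * π * I * e1Pt N a b τ) ≠ 1 := by
  have hN : (0 : ℝ) < N := Nat.cast_pos.mpr (Nat.pos_of_ne_zero (NeZero.ne N))
  rcases eq_or_lt_of_le ha0 with h0 | hpos
  · -- `a = 0`
    subst h0
    have hb : ¬ (N : ℤ) ∣ b := fun h => hab ⟨dvd_zero _, h⟩
    intro h
    rw [Complex.exp_eq_one_iff] at h
    obtain ⟨n, hn⟩ := h
    apply hb
    refine ⟨n, ?_⟩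
    have hN' : (N : ℂ) ≠ 0 := Nat.cast_ne_zero.mpr (NeZero.ne N)
    have h2 : e1Pt N 0 b τ = n := by
      have hpi : (2 * π * I : ℂ) ≠ 0 := by
        simp [Real.pi_ne_zero, I_ne_zero]
      have : 2 * π * I * e1Pt N 0 b τ = 2 * π * I * n := by rw [hn]; ring
      exact mul_left_cancel₀ hpi this
    unfold e1Pt at h2
    simp only [Int.cast_zero, zero_mul, zero_add] at h2
    rw [div_eq_iff hN'] at h2
    have h3 : ((b : ℤ) : ℂ) = ((n * N : ℤ) : ℂ) := by rw [h2]; push_cast; ring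
    have := Int.cast_injective h3
    rw [this]; ring
  · apply e1b_exp_ne_one_of_im_ne_zero
    rw [e1b_im_e1Pt]
    have : (0 : ℝ) < a := by exact_mod_cast hpos
    positivity

theorem e1b_differentiableOn (ha0 : 0 ≤ a) (haN : a < N)
    (hab : ¬ ((N : ℤ) ∣ a ∧ (N : ℤ) ∣ b)) :
    DifferentiableOn ℂ (fun z : ℂ => e1Zrow N a b z) {z | 0 < z.im} := by
  have hN : (0 : ℝ) < N := Nat.cast_pos.mpr (Nat.pos_of_ne_zero (NeZero.ne N))
  have haN' : (a : ℝ) / N < 1 := by rw [div_lt_one hN]; exact_mod_cast haN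
  have ha0' : (0 : ℝ) ≤ (a : ℝ) / N := div_nonneg (by exact_mod_cast ha0) hN.le
  intro z hz
  have hz' : 0 < z.im := hz
  -- work on the open half plane `{ε < Im}`
  set ε := z.im / 2 with hε
  have hεpos : 0 < ε := by positivity
  set s : Set ℂ := {w | ε < w.im} with hs
  have hsopen : IsOpen s := isOpen_lt continuous_const Complex.continuous_im
  have hzs : z ∈ s := by
    change ε < z.im
    rw [hε]; linarith
  have hsub : s ⊆ {w | 0 < w.im} := fun w hw => lt_trans hεpos hw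
  suffices h : DifferentiableOn ℂ (fun w : ℂ => e1Zrow N a b w) s from
    ((h z hzs).differentiableAt (hsopen.mem_nhds hzs)).differentiableWithinAt
  have hU : Differentiable ℂ (fun w : ℂ => cexp (2 * π * I * e1Pt N a b w)) :=
    (((differentiable_const _).mul (e1b_differentiable_e1Pt N a b))).cexp
  have hV : Differentiable ℂ (fun w : ℂ => cexp (-(2 * π * I * e1Pt N a b w))) :=
    (((differentiable_const _).mul (e1b_differentiable_e1Pt N a b))).neg.cexp
  have hQ : Differentiable ℂ (fun w : ℂ => cexp (2 * π * I * w)) :=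
    ((differentiable_const _).mul differentiable_id).cexp
  -- the Lambert parts
  have hA1 : DifferentiableOn ℂ (fun w : ℂ =>
      e1b_lamA (cexp (2 * π * I * e1Pt N a b w)) (cexp (2 * π * I * w))) s := by
    refine e1b_differentiableOn_lamA hsopen hU.differentiableOn hQ.differentiableOn
      (r := Real.exp (-(2 * π * ε))) (Real.exp_nonneg _) ?_ ?_
    · rw [Real.exp_lt_one_iff]
      have := Real.pi_pos
      nlinarith
    · intro w hw m
      have hw' : ε < w.im := hw
      rw [norm_mul, norm_pow, e1b_norm_exp, e1b_norm_exp, ← Real.exp_nat_mul, ← Real.exp_nat_mul,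
        ← Real.exp_add, Real.exp_le_exp, e1b_im_e1Pt]
      have hm : (0 : ℝ) ≤ m := Nat.cast_nonneg m
      have hπ := Real.pi_pos
      have hwpos : 0 < w.im := lt_trans hεpos hw'
      have h1 : 0 ≤ (a : ℝ) / N * w.im := by positivity
      have key : 0 ≤ π * (((m : ℝ) + 1) * (w.im - ε) + (a : ℝ) / N * w.im) := by
        have : 0 ≤ ((m : ℝ) + 1) * (w.im - ε) := mul_nonneg (by linarith) (by linarith)
        positivity
      push_cast
      nlinarith [key]
  have hA2 : DifferentiableOn ℂ (fun w : ℂ =>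
      e1b_lamA (cexp (-(2 * π * I * e1Pt N a b w))) (cexp (2 * π * I * w))) s := by
    refine e1b_differentiableOn_lamA hsopen hV.differentiableOn hQ.differentiableOn
      (r := Real.exp (-(2 * π * ((1 - (a : ℝ) / N) * ε)))) (Real.exp_nonneg _) ?_ ?_
    · rw [Real.exp_lt_one_iff]
      have := Real.pi_pos
      have : 0 < (1 - (a : ℝ) / N) * ε := by nlinarith
      nlinarith
    · intro w hw m
      have hw' : ε < w.im := hw
      rw [norm_mul, norm_pow, e1b_norm_exp_neg, e1b_norm_exp, ← Real.exp_nat_mul,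
        ← Real.exp_nat_mul, ← Real.exp_add, Real.exp_le_exp, e1b_im_e1Pt]
      have hm : (0 : ℝ) ≤ m := Nat.cast_nonneg m
      have hπ := Real.pi_pos
      have hwpos : 0 < w.im := lt_trans hεpos hw'
      have h1 : 0 < 1 - (a : ℝ) / N := by linarith
      have h2 : (1 - (a : ℝ) / N) * ε ≤ (1 - (a : ℝ) / N) * w.im := by nlinarith
      have h3 : 0 ≤ (m : ℝ) * w.im := by positivity
      have key : 0 ≤ π * (((m : ℝ) + 1) * ((1 - (a : ℝ) / N) * (w.im - ε)) +
          (m : ℝ) * ((a : ℝ) / N * w.im)) := by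
        have h4 : 0 ≤ ((m : ℝ) + 1) * ((1 - (a : ℝ) / N) * (w.im - ε)) :=
          mul_nonneg (by linarith) (mul_nonneg h1.le (by linarith))
        have h5 : 0 ≤ (m : ℝ) * ((a : ℝ) / N * w.im) := by positivity
        positivity
      push_cast
      nlinarith [key]
  -- the cotangent part
  have hcot : DifferentiableOn ℂ (fun w : ℂ => (π : ℂ) * cot (π * e1Pt N a b w)) s := by
    have h1 : DifferentiableOn ℂ (fun w : ℂ => -(π * I) - 2 * π * I *
        (cexp (2 * π * I * e1Pt N a b w) / (1 - cexp (2 * π * I * e1Pt N a b w)))) s := by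
      refine (differentiableOn_const _).sub ((differentiableOn_const _).mul
        (DifferentiableOn.div hU.differentiableOn
          ((differentiableOn_const _).sub hU.differentiableOn) ?_))
      intro w hw
      exact sub_ne_zero.mpr (Ne.symm (e1b_exp_e1Pt_ne_one N a b (hsub hw) ha0 haN hab))
    refine h1.congr ?_
    intro w hw
    exact e1b_pi_mul_cot_eq _ (e1b_exp_e1Pt_ne_one N a b (hsub hw) ha0 haN hab)
  have htot : DifferentiableOn ℂ (fun w : ℂ => 2 * π * I * (a : ℂ) / (N : ℂ) +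
      ((π : ℂ) * cot (π * e1Pt N a b w) - 2 * π * I *
        (e1b_lamA (cexp (2 * π * I * e1Pt N a b w)) (cexp (2 * π * I * w)) -
          e1b_lamA (cexp (-(2 * π * I * e1Pt N a b w))) (cexp (2 * π * I * w))))) s :=
    (differentiableOn_const _).add (hcot.sub ((differentiableOn_const _).mul (hA1.sub hA2)))
  refine htot.congr ?_
  intro w hw
  rw [e1b_e1Zrow_eq N a b (hsub hw) ha0 haN]
  simp only [e1b_cotC]

/-- **E1-bdd, holomorphy.** -/
theorem stmtE1RowMDiff : StmtE1RowMDiff := by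
  intro N _ a b ha0 haN hab
  rw [UpperHalfPlane.mdifferentiable_iff]
  refine (e1b_differentiableOn N a b ha0 haN hab).congr ?_
  intro z hz
  have hz' : 0 < z.im := hz
  simp only [Function.comp_apply, ofComplex_apply_of_im_pos hz']

/-- **E1-bdd, boundedness at `i∞`.** -/
theorem stmtE1RowBdd : StmtE1RowBdd := by
  intro N _ a b ha0 haN hab
  have hN : (0 : ℝ) < N := Nat.cast_pos.mpr (Nat.pos_of_ne_zero (NeZero.ne N))
  have haN' : (a : ℝ) / N < 1 := by rw [div_lt_one hN]; exact_mod_cast haN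
  have ha0' : (0 : ℝ) ≤ (a : ℝ) / N := div_nonneg (by exact_mod_cast ha0) hN.le
  have haN1 : (a : ℝ) + 1 ≤ N := by exact_mod_cast (Int.add_one_le_iff.mpr haN)
  rw [isBoundedAtImInfty_iff]
  refine ⟨‖2 * π * I * (a : ℂ) / (N : ℂ)‖ + (‖(π : ℂ) * cot (π * ((b : ℂ) / (N : ℂ)))‖ + 3 * π
    + 2 * π * (2 + 2)), N, ?_⟩
  intro z hz
  have hzpos : 0 < (z : ℂ).im := z.im_pos
  have hzN : (N : ℝ) ≤ (z : ℂ).im := hz
  have hπ := Real.pi_pos
  rw [e1b_e1Zrow_eq N a b hzpos ha0 haN]
  refine (norm_add_le _ _).trans (add_le_add le_rfl ?_)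
  unfold e1b_cotC
  set q := cexp (2 * π * I * (z : ℂ)) with hq
  set u := cexp (2 * π * I * e1Pt N a b z) with hu
  set v := cexp (-(2 * π * I * e1Pt N a b z)) with hv
  have hhalf := e1b_exp_le_one_half
  -- norms
  have hqn : ‖q‖ ≤ 1 / 2 := by
    rw [hq, e1b_norm_exp]
    refine le_trans (Real.exp_le_exp.mpr ?_) hhalf
    have : (1 : ℝ) ≤ N := by exact_mod_cast Nat.one_le_iff_ne_zero.mpr (NeZero.ne N)
    nlinarith
  have hun : ‖u‖ ≤ 1 := by
    rw [hu, e1b_norm_exp, e1b_im_e1Pt]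
    rw [Real.exp_le_one_iff]
    have : 0 ≤ (a : ℝ) / N * (z : ℂ).im := by positivity
    nlinarith
  have huq : ‖u‖ * ‖q‖ ≤ 1 / 2 := by
    calc ‖u‖ * ‖q‖ ≤ 1 * ‖q‖ := mul_le_mul_of_nonneg_right hun (norm_nonneg _)
      _ = ‖q‖ := one_mul _
      _ ≤ 1 / 2 := hqn
  have hvq : ‖v‖ * ‖q‖ ≤ 1 / 2 := by
    rw [hv, hq, e1b_norm_exp_neg, e1b_norm_exp, ← Real.exp_add, e1b_im_e1Pt]
    refine le_trans (Real.exp_le_exp.mpr ?_) hhalf
    have h1 : (1 : ℝ) / N ≤ 1 - (a : ℝ) / N := by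
      rw [le_sub_iff_add_le, ← add_div, div_le_one hN]
      linarith
    have h2 : 1 ≤ (1 - (a : ℝ) / N) * (z : ℂ).im := by
      calc (1 : ℝ) = 1 / N * N := by field_simp
        _ ≤ (1 - (a : ℝ) / N) * (z : ℂ).im :=
          mul_le_mul h1 hzN hN.le (by linarith)
    nlinarith
  have hA1 : ‖e1b_lamA u q‖ ≤ 2 := by
    refine (e1b_norm_lamA_le hqn huq).trans ?_
    linarith
  have hA2 : ‖e1b_lamA v q‖ ≤ 2 := by
    refine (e1b_norm_lamA_le hqn hvq).trans ?_
    linarith
  -- the cotangent term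
  have hcot : ‖(π : ℂ) * cot (π * e1Pt N a b z)‖ ≤
      ‖(π : ℂ) * cot (π * ((b : ℂ) / (N : ℂ)))‖ + 3 * π := by
    rcases eq_or_lt_of_le ha0 with h0 | hpos
    · subst h0
      have : e1Pt N 0 b (z : ℂ) = (b : ℂ) / (N : ℂ) := by
        unfold e1Pt; simp
      rw [this]
      have : (0 : ℝ) ≤ 3 * π := by positivity
      linarith
    · have ha1 : (1 : ℝ) ≤ a := by exact_mod_cast hpos
      have hun' : ‖u‖ ≤ 1 / 2 := by
        rw [hu, e1b_norm_exp, e1b_im_e1Pt]
        refine le_trans (Real.exp_le_exp.mpr ?_) hhalf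
        have h1 : (1 : ℝ) / N ≤ (a : ℝ) / N := div_le_div_of_nonneg_right ha1 hN.le
        have h2 : 1 ≤ (a : ℝ) / N * (z : ℂ).im := by
          calc (1 : ℝ) = 1 / N * N := by field_simp
            _ ≤ (a : ℝ) / N * (z : ℂ).im :=
              mul_le_mul h1 hzN hN.le (by positivity)
        nlinarith
      rw [e1b_pi_mul_cot_eq _ (e1b_exp_e1Pt_ne_one N a b hzpos ha0 haN hab)]
      have h1 : ‖u / (1 - u)‖ ≤ 1 := by
        rw [norm_div]
        have h2 : (1 : ℝ) / 2 ≤ ‖1 - u‖ := by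
          have := norm_sub_norm_le (1 : ℂ) u
          rw [norm_one] at this
          linarith
        rw [div_le_one (by linarith)]
        linarith
      have h3 : ‖-((π : ℂ) * I) - 2 * π * I * (u / (1 - u))‖ ≤ 3 * π := by
        refine (norm_sub_le _ _).trans ?_
        rw [norm_neg, norm_mul, norm_mul, norm_mul, norm_mul, Complex.norm_I, Complex.norm_real,
          Real.norm_of_nonneg hπ.le]
        simp only [Complex.norm_ofNat, mul_one]
        nlinarith
      have : 0 ≤ ‖(π : ℂ) * cot (π * ((b : ℂ) / (N : ℂ)))‖ := norm_nonneg _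
      linarith
  refine (norm_sub_le _ _).trans ?_
  have h5 : ‖2 * (π : ℂ) * I * (e1b_lamA u q - e1b_lamA v q)‖ ≤ 2 * π * (2 + 2) := by
    rw [norm_mul, norm_mul, norm_mul, Complex.norm_I, Complex.norm_real,
      Real.norm_of_nonneg hπ.le]
    simp only [Complex.norm_ofNat, mul_one]
    have := norm_sub_le (e1b_lamA u q) (e1b_lamA v q)
    have h6 : ‖e1b_lamA u q - e1b_lamA v q‖ ≤ 2 + 2 := by linarith
    have : 0 ≤ 2 * π := by positivity
    nlinarith
  linarith

end Main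

end Fermat.Agent.S48
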