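import Mathlib
import Fermat.Agent.S48.E1.Plan

/-!
# S48 / E1-q: the `q`-expansion of the division values `Z_{(0,b)}`

`∑_{m ∈ ℤ} (π cot(π (x − m τ)) + π cot(π m τ))
  = π cot(π x) + 2πi ∑_{n ≥ 1} (∑_{k ∣ n} (e^{−2πi k x} − e^{2πi k x})) qⁿ` for real `x`,
`q = e^{2πiτ}`, `τ` in the upper half plane.
-/

set_option autoImplicit false

open Complex
open UpperHalfPlane hiding I
open scoped Real

noncomputable section

namespace Fermat.Agent.S48

/-- `π cot(π z) = −πi − 2πi ∑_{k ≥ 1} e^{2πikz}` in the upper half plane. -/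
theorem e1q_cot_upper (z : ℂ) (hz : 0 < z.im) :
    HasSum (fun k : ℕ+ => -(2 * π * I) * cexp (2 * π * I * z) ^ (k : ℕ))
      (π * cot (π * z) + π * I) := by
  have hr : ‖cexp (2 * π * I * z)‖ < 1 := UpperHalfPlane.norm_exp_two_pi_I_lt_one ⟨z, hz⟩
  have h1 := pi_mul_cot_pi_q_exp ⟨z, hz⟩
  have hs : Summable fun n : ℕ => cexp (2 * π * I * z) ^ n :=
    summable_geometric_of_norm_lt_one hr
  have h2 : HasSum (fun n : ℕ => cexp (2 * π * I * z) ^ (n + 1))
      (∑' n : ℕ, cexp (2 * π * I * z) ^ n - 1) := by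
    have := (hasSum_nat_add_iff' (f := fun n : ℕ => cexp (2 * π * I * z) ^ n) 1).mpr hs.hasSum
    simpa using this
  have h3 := (hasSum_pnat_iff_hasSum_succ (f := fun n : ℕ => cexp (2 * π * I * z) ^ n)).mpr h2
  have h4 := h3.mul_left (-(2 * π * I))
  have h5 : -(2 * π * I) * (∑' n : ℕ, cexp (2 * π * I * z) ^ n - 1) = π * cot (π * z) + π * I := by
    have h1' : π * cot (π * z) = π * I - 2 * π * I * ∑' n : ℕ, cexp (2 * π * I * z) ^ n := h1
    rw [h1']
    ring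
  rw [← h5]
  exact h4

theorem e1q_cot_neg (z : ℂ) : cot (-z) = - cot z := by
  rw [Complex.cot_eq_cos_div_sin, Complex.cot_eq_cos_div_sin, Complex.cos_neg, Complex.sin_neg,
    div_neg]

/-- `π cot(π z) = πi + 2πi ∑_{k ≥ 1} e^{−2πikz}` in the lower half plane. -/
theorem e1q_cot_lower (z : ℂ) (hz : z.im < 0) :
    HasSum (fun k : ℕ+ => (2 * π * I) * cexp (-(2 * π * I * z)) ^ (k : ℕ))
      (π * cot (π * z) - π * I) := by
  have h := e1q_cot_upper (-z) (by simpa using hz)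
  have h2 := h.neg
  have e1 : π * z = -(π * (-z)) := by ring
  rw [e1, e1q_cot_neg]
  have e2 : 2 * π * I * (-z) = -(2 * π * I * z) := by ring
  rw [e2] at h2
  have h3 : (fun b : ℕ+ => -(-(2 * π * I) * cexp (-(2 * π * I * z)) ^ (b : ℕ))) =
      fun k : ℕ+ => (2 * π * I) * cexp (-(2 * π * I * z)) ^ (k : ℕ) := by
    funext k
    ring
  rw [h3] at h2
  have e3 : π * -cot (π * -z) - π * I = -(π * cot (π * -z) + π * I) := by ring
  rw [e3]
  exact h2

/-- the rows `m ≥ 1` -/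
theorem e1q_row_pos (x τ : ℂ) (hx : x.im = 0) (hτ : 0 < τ.im) (m : ℕ+) :
    HasSum (fun k : ℕ+ => 2 * π * I *
        (cexp (-(2 * π * I * x)) ^ (k : ℕ) - 1) * cexp (2 * π * I * τ) ^ ((m : ℕ) * (k : ℕ)))
      (π * cot (π * (x - ((m : ℕ) : ℂ) * τ)) + π * cot (π * (((m : ℕ) : ℂ) * τ))) := by
  have hm : (0 : ℝ) < ((m : ℕ) : ℝ) := by exact_mod_cast m.pos
  have i1 : (x - ((m : ℕ) : ℂ) * τ).im < 0 := by
    simp only [sub_im, mul_im, natCast_re, natCast_im, zero_mul, add_zero, hx, zero_sub,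
      neg_lt_zero]
    positivity
  have i2 : 0 < (((m : ℕ) : ℂ) * τ).im := by
    simp only [mul_im, natCast_re, natCast_im, zero_mul, add_zero]
    positivity
  have h1 := e1q_cot_lower _ i1
  have h2 := e1q_cot_upper _ i2
  have h3 := h1.add h2
  convert h3 using 1
  · funext k
    have e1 : cexp (-(2 * π * I * (x - ((m : ℕ) : ℂ) * τ))) ^ (k : ℕ) =
        cexp (-(2 * π * I * x)) ^ (k : ℕ) * cexp (2 * π * I * τ) ^ ((m : ℕ) * (k : ℕ)) := by
      rw [← Complex.exp_nat_mul, ← Complex.exp_nat_mul, ← Complex.exp_nat_mul, ← Complex.exp_add]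
      congr 1
      push_cast
      ring
    have e2 : cexp (2 * π * I * (((m : ℕ) : ℂ) * τ)) ^ (k : ℕ) =
        cexp (2 * π * I * τ) ^ ((m : ℕ) * (k : ℕ)) := by
      rw [← Complex.exp_nat_mul, ← Complex.exp_nat_mul]
      congr 1
      push_cast
      ring
    rw [e1, e2]
    ring
  · ring

/-- the rows `m ≤ -1` -/
theorem e1q_row_neg (x τ : ℂ) (hx : x.im = 0) (hτ : 0 < τ.im) (m : ℕ+) :
    HasSum (fun k : ℕ+ => 2 * π * I *
        (1 - cexp (2 * π * I * x) ^ (k : ℕ)) * cexp (2 * π * I * τ) ^ ((m : ℕ) * (k : ℕ)))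
      (π * cot (π * (x - (-((m : ℕ) : ℂ)) * τ)) + π * cot (π * ((-((m : ℕ) : ℂ)) * τ))) := by
  have hm : (0 : ℝ) < ((m : ℕ) : ℝ) := by exact_mod_cast m.pos
  have i1 : 0 < (x - (-((m : ℕ) : ℂ)) * τ).im := by
    simp only [sub_im, mul_im, neg_im, natCast_re, natCast_im, zero_mul,
      add_zero, hx, zero_sub, neg_mul, neg_neg]
    positivity
  have i2 : ((-((m : ℕ) : ℂ)) * τ).im < 0 := by
    simp only [mul_im, neg_im, natCast_re, natCast_im, zero_mul, add_zero,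
      neg_mul, neg_lt_zero]
    positivity
  have h1 := e1q_cot_upper _ i1
  have h2 := e1q_cot_lower _ i2
  have h3 := h1.add h2
  convert h3 using 1
  · funext k
    have e1 : cexp (2 * π * I * (x - (-((m : ℕ) : ℂ)) * τ)) ^ (k : ℕ) =
        cexp (2 * π * I * x) ^ (k : ℕ) * cexp (2 * π * I * τ) ^ ((m : ℕ) * (k : ℕ)) := by
      rw [← Complex.exp_nat_mul, ← Complex.exp_nat_mul, ← Complex.exp_nat_mul, ← Complex.exp_add]
      congr 1
      push_cast
      ring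
    have e2 : cexp (-(2 * π * I * ((-((m : ℕ) : ℂ)) * τ))) ^ (k : ℕ) =
        cexp (2 * π * I * τ) ^ ((m : ℕ) * (k : ℕ)) := by
      rw [← Complex.exp_nat_mul, ← Complex.exp_nat_mul]
      congr 1
      push_cast
      ring
    rw [e1, e2]
    ring
  · ring

/-- summability of a Lambert type double series with bounded coefficients -/
theorem e1q_summable_pair {q : ℂ} (hq : ‖q‖ < 1) (c : ℕ → ℂ) (C : ℝ) (hc : ∀ k, ‖c k‖ ≤ C) :
    Summable (fun p : ℕ+ × ℕ+ => c (p.2 : ℕ) * q ^ ((p.1 : ℕ) * (p.2 : ℕ))) := by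
  have h := (summable_prod_mul_pow (𝕜 := ℝ) 0 (r := ‖q‖) (by simpa using hq)).mul_left C
  refine Summable.of_norm_bounded h fun p => ?_
  rw [norm_mul, norm_pow]
  simp only [pow_zero, one_mul]
  exact mul_le_mul_of_nonneg_right (hc _) (by positivity)

/-- the Lambert rearrangement -/
theorem e1q_hasSum_lambert {q : ℂ} (hq : ‖q‖ < 1) (c : ℕ → ℂ) (C : ℝ) (hc : ∀ k, ‖c k‖ ≤ C) :
    HasSum (fun n : ℕ+ => (∑ k ∈ (n : ℕ).divisors, c k) * q ^ (n : ℕ))
      (∑' p : ℕ+ × ℕ+, c (p.2 : ℕ) * q ^ ((p.1 : ℕ) * (p.2 : ℕ))) := by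
  have hs := e1q_summable_pair hq c C hc
  have h1 := sigmaAntidiagonalEquivProd.hasSum_iff.mpr hs.hasSum
  refine h1.sigma fun n => ?_
  have h2 := hasSum_fintype (fun x : Nat.divisorsAntidiagonal n =>
    ((fun p : ℕ+ × ℕ+ => c (p.2 : ℕ) * q ^ ((p.1 : ℕ) * (p.2 : ℕ))) ∘
      sigmaAntidiagonalEquivProd) ⟨n, x⟩)
  convert h2 using 1
  rw [Finset.univ_eq_attach]
  have h3 : ∀ x : Nat.divisorsAntidiagonal n,
      ((fun p : ℕ+ × ℕ+ => c (p.2 : ℕ) * q ^ ((p.1 : ℕ) * (p.2 : ℕ))) ∘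
        sigmaAntidiagonalEquivProd) ⟨n, x⟩ =
      (fun y : ℕ × ℕ => c y.2 * q ^ (y.1 * y.2)) x.1 := by
    intro x
    simp [sigmaAntidiagonalEquivProd, divisorsAntidiagonalFactors]
  simp_rw [h3]
  rw [(n : ℕ).divisorsAntidiagonal.sum_attach (fun y : ℕ × ℕ => c y.2 * q ^ (y.1 * y.2))]
  rw [Nat.sum_divisorsAntidiagonal' (fun x y => c y * q ^ (x * y))]
  rw [Finset.sum_mul]
  refine Finset.sum_congr rfl fun i hi => ?_
  rw [Nat.div_mul_cancel (Nat.dvd_of_mem_divisors hi)]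

theorem e1q_cot_zero : Complex.cot 0 = 0 := by
  rw [Complex.cot_eq_cos_div_sin, Complex.sin_zero, div_zero]

theorem e1q_norm_exp_real (x : ℂ) (hx : x.im = 0) (s : ℂ) (hs : s.re = 0) :
    ‖cexp (s * x)‖ = 1 := by
  rw [Complex.norm_exp]
  simp [mul_re, hx, hs]

/-- the core identity: the `q`-expansion of the row sum at a real point `x`. -/
theorem e1q_core (x τ : ℂ) (hx : x.im = 0) (hτ : 0 < τ.im) :
    HasSum (fun n : ℕ =>
        (if n = 0 then π * cot (π * x)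
          else 2 * π * I * ∑ k ∈ n.divisors,
            (cexp (-(2 * π * I * x)) ^ k - cexp (2 * π * I * x) ^ k)) * cexp (2 * π * I * τ) ^ n)
      (∑' m : ℤ, (π * cot (π * (x - (m : ℂ) * τ)) + π * cot (π * ((m : ℂ) * τ)))) := by
  have hq1 : ‖cexp (2 * π * I * τ)‖ < 1 := UpperHalfPlane.norm_exp_two_pi_I_lt_one ⟨τ, hτ⟩
  have hvn : ‖cexp (-(2 * π * I * x))‖ = 1 := by
    have := e1q_norm_exp_real x hx (-(2 * π * I)) (by simp)
    rwa [neg_mul] at this
  have hwn : ‖cexp (2 * π * I * x)‖ = 1 := e1q_norm_exp_real x hx (2 * π * I) (by simp)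
  have h2pi : ‖(2 * π * I : ℂ)‖ = 2 * π := by
    simp [abs_of_pos Real.pi_pos]
  have hcA : ∀ k : ℕ, ‖2 * π * I * (cexp (-(2 * π * I * x)) ^ k - 1)‖ ≤ 2 * π * 2 := by
    intro k
    rw [norm_mul, h2pi]
    refine mul_le_mul_of_nonneg_left ?_ (by positivity)
    calc ‖cexp (-(2 * π * I * x)) ^ k - 1‖ ≤ ‖cexp (-(2 * π * I * x)) ^ k‖ + ‖(1 : ℂ)‖ :=
          norm_sub_le _ _
      _ = 2 := by rw [norm_pow, hvn, one_pow, norm_one]; norm_num
  have hcB : ∀ k : ℕ, ‖2 * π * I * (1 - cexp (2 * π * I * x) ^ k)‖ ≤ 2 * π * 2 := by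
    intro k
    rw [norm_mul, h2pi]
    refine mul_le_mul_of_nonneg_left ?_ (by positivity)
    calc ‖1 - cexp (2 * π * I * x) ^ k‖ ≤ ‖(1 : ℂ)‖ + ‖cexp (2 * π * I * x) ^ k‖ :=
          norm_sub_le _ _
      _ = 2 := by rw [norm_pow, hwn, one_pow, norm_one]; norm_num
  have sA := e1q_summable_pair hq1 (fun k => 2 * π * I * (cexp (-(2 * π * I * x)) ^ k - 1)) _ hcA
  have sB := e1q_summable_pair hq1 (fun k => 2 * π * I * (1 - cexp (2 * π * I * x) ^ k)) _ hcB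
  obtain ⟨SA, hSA⟩ := sA
  obtain ⟨SB, hSB⟩ := sB
  -- the rows
  have hpos : HasSum (fun m : ℕ+ =>
      π * cot (π * (x - ((m : ℕ) : ℂ) * τ)) + π * cot (π * (((m : ℕ) : ℂ) * τ))) SA := by
    refine hSA.prod_fiberwise fun m => ?_
    exact e1q_row_pos x τ hx hτ m
  have hneg : HasSum (fun m : ℕ+ =>
      π * cot (π * (x - (-((m : ℕ) : ℂ)) * τ)) + π * cot (π * ((-((m : ℕ) : ℂ)) * τ))) SB := by
    refine hSB.prod_fiberwise fun m => ?_
    exact e1q_row_neg x τ hx hτ m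
  -- pass to `ℕ`
  have hposN : HasSum (fun n : ℕ =>
      π * cot (π * (x - (((n : ℕ) : ℤ) : ℂ) * τ)) + π * cot (π * ((((n : ℕ) : ℤ) : ℂ) * τ)))
      (π * cot (π * x) + SA) := by
    have h1 := (hasSum_pnat_iff_hasSum_succ (f := fun n : ℕ =>
      π * cot (π * (x - ((n : ℕ) : ℂ) * τ)) + π * cot (π * (((n : ℕ) : ℂ) * τ)))).mp hpos
    have h2 := HasSum.zero_add (f := fun n : ℕ =>
      π * cot (π * (x - ((n : ℕ) : ℂ) * τ)) + π * cot (π * (((n : ℕ) : ℂ) * τ))) h1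
    simp only [Nat.cast_zero, zero_mul, sub_zero, mul_zero, e1q_cot_zero, add_zero] at h2
    simpa only [Int.cast_natCast] using h2
  have hnegN : HasSum (fun n : ℕ =>
      π * cot (π * (x - ((-(((n : ℕ) : ℤ) + 1) : ℤ) : ℂ) * τ)) +
        π * cot (π * (((-(((n : ℕ) : ℤ) + 1) : ℤ) : ℂ) * τ))) SB := by
    have h1 := (hasSum_pnat_iff_hasSum_succ (f := fun n : ℕ =>
      π * cot (π * (x - (-((n : ℕ) : ℂ)) * τ)) + π * cot (π * ((-((n : ℕ) : ℂ)) * τ)))).mp hneg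
    simpa only [Int.cast_neg, Int.cast_add, Int.cast_natCast, Int.cast_one, Nat.cast_add,
      Nat.cast_one] using h1
  have hZ := HasSum.of_nat_of_neg_add_one
    (f := fun m : ℤ => π * cot (π * (x - (m : ℂ) * τ)) + π * cot (π * ((m : ℂ) * τ))) hposN hnegN
  rw [hZ.tsum_eq]
  -- the Lambert rearrangement
  have hL := e1q_hasSum_lambert hq1
    (fun k => 2 * π * I * (cexp (-(2 * π * I * x)) ^ k - 1) +
      2 * π * I * (1 - cexp (2 * π * I * x) ^ k)) (2 * π * 2 + 2 * π * 2)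
    (fun k => (norm_add_le _ _).trans (add_le_add (hcA k) (hcB k)))
  have hAB := hSA.add hSB
  have hsum : (∑' p : ℕ+ × ℕ+, (2 * π * I * (cexp (-(2 * π * I * x)) ^ (p.2 : ℕ) - 1) +
      2 * π * I * (1 - cexp (2 * π * I * x) ^ (p.2 : ℕ))) *
        cexp (2 * π * I * τ) ^ ((p.1 : ℕ) * (p.2 : ℕ))) = SA + SB := by
    rw [← hAB.tsum_eq]
    refine tsum_congr fun p => ?_
    ring
  rw [hsum] at hL
  have hLN := (hasSum_pnat_iff_hasSum_succ (f := fun n : ℕ =>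
    (∑ k ∈ n.divisors, (2 * π * I * (cexp (-(2 * π * I * x)) ^ k - 1) +
      2 * π * I * (1 - cexp (2 * π * I * x) ^ k))) * cexp (2 * π * I * τ) ^ n)).mp hL
  have hfin : HasSum (fun n : ℕ =>
      (if n + 1 = 0 then π * cot (π * x)
        else 2 * π * I * ∑ k ∈ (n + 1).divisors,
          (cexp (-(2 * π * I * x)) ^ k - cexp (2 * π * I * x) ^ k)) *
        cexp (2 * π * I * τ) ^ (n + 1)) (SA + SB) := by
    have e : (fun n : ℕ =>
        (if n + 1 = 0 then π * cot (π * x)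
          else 2 * π * I * ∑ k ∈ (n + 1).divisors,
            (cexp (-(2 * π * I * x)) ^ k - cexp (2 * π * I * x) ^ k)) *
          cexp (2 * π * I * τ) ^ (n + 1)) = fun n : ℕ =>
        (∑ k ∈ (n + 1).divisors, (2 * π * I * (cexp (-(2 * π * I * x)) ^ k - 1) +
          2 * π * I * (1 - cexp (2 * π * I * x) ^ k))) * cexp (2 * π * I * τ) ^ (n + 1) := by
      funext n
      rw [if_neg (Nat.succ_ne_zero n), Finset.mul_sum]
      congr 1
      refine Finset.sum_congr rfl fun k _ => ?_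
      ring
    rw [e]
    exact hLN
  have hfinal := HasSum.zero_add (f := fun n : ℕ =>
        (if n = 0 then π * cot (π * x)
          else 2 * π * I * ∑ k ∈ n.divisors,
            (cexp (-(2 * π * I * x)) ^ k - cexp (2 * π * I * x) ^ k)) *
          cexp (2 * π * I * τ) ^ n) hfin
  have e0 : (if (0 : ℕ) = 0 then π * cot (π * x)
          else 2 * π * I * ∑ k ∈ (0 : ℕ).divisors,
            (cexp (-(2 * π * I * x)) ^ k - cexp (2 * π * I * x) ^ k)) *
          cexp (2 * π * I * τ) ^ 0 = π * cot (π * x) := by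
    rw [if_pos rfl, pow_zero, mul_one]
  rw [e0] at hfinal
  rw [add_assoc]
  exact hfinal

/-- (E1-q) the `q`-expansion of `Z_{(0,b)}`. -/
theorem stmtE1RowQ : StmtE1RowQ := by
  intro N _ b _ τ
  have hN : ((N : ℕ) : ℂ) ≠ 0 := Nat.cast_ne_zero.mpr (NeZero.ne N)
  have hx : ((b : ℂ) / (N : ℂ)).im = 0 := by
    have : ((b : ℂ) / (N : ℂ)) = (((b : ℝ) / (N : ℝ) : ℝ) : ℂ) := by push_cast; rfl
    rw [this, Complex.ofReal_im]
  have h := e1q_core ((b : ℂ) / (N : ℂ)) (τ : ℂ) hx τ.im_pos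
  have e1 : e1Zrow N 0 b (τ : ℂ) = ∑' m : ℤ, (π * cot (π * ((b : ℂ) / (N : ℂ) - (m : ℂ) * τ)) +
      π * cot (π * ((m : ℂ) * τ))) := by
    unfold e1Zrow e1Row e1Pt
    simp only [Int.cast_zero, zero_mul, zero_add, mul_zero, zero_div]
  have e2 : (fun n : ℕ => e1Coeff N b n * cexp (2 * π * I * (τ : ℂ)) ^ n) = fun n : ℕ =>
      (if n = 0 then π * cot (π * ((b : ℂ) / (N : ℂ)))
        else 2 * π * I * ∑ k ∈ n.divisors,
          (cexp (-(2 * π * I * ((b : ℂ) / (N : ℂ)))) ^ k -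
            cexp (2 * π * I * ((b : ℂ) / (N : ℂ))) ^ k)) * cexp (2 * π * I * (τ : ℂ)) ^ n := by
    funext n
    unfold e1Coeff
    congr 1
    by_cases hn : n = 0
    · rw [if_pos hn, if_pos hn, mul_div_assoc]
    · rw [if_neg hn, if_neg hn]
      congr 1
      refine Finset.sum_congr rfl fun k _ => ?_
      rw [← Complex.exp_nat_mul, ← Complex.exp_nat_mul]
      congr 2
      · ring
      · ring
  rw [e1, e2]
  exact h

end Fermat.Agent.S48
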