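import Mathlib
import Fermat.Agent.S48.E1.Plan
import Fermat.Agent.S48.ZbLemmas

/-!
# S48 / E1-alg (= E1-teich): the inverse Teichmüller character — core

For an odd prime `ℓ` and a maximal ideal `𝔪 ∋ ℓ` of `ℤ̄` there is a Dirichlet character `ψ` mod `ℓ`
with `a ψ(a) ≡ 1` mod `𝔪`; it is odd, `∑_{a < ℓ} a ψ(a) ≡ -1` and `2 ℓ ∑_{d ∣ n} ψ(d) ∈ 𝔪`.
-/

set_option autoImplicit false
set_option linter.style.haveILetI false

open Polynomial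

namespace Fermat.Agent.S48

section Root

variable {ℓ : ℕ} (hℓ : ℓ.Prime) (𝔪 : Ideal Zb) [h𝔪 : 𝔪.IsMaximal]

include hℓ in
/-- a primitive `(ℓ-1)`-th root of unity in `ℤ̄` -/
theorem e1T_exists_primitiveRoot : ∃ ζ : Zb, IsPrimitiveRoot ζ (ℓ - 1) := by
  have hn : ℓ - 1 ≠ 0 := by have := hℓ.two_le; omega
  have h := Complex.isPrimitiveRoot_exp (ℓ - 1) hn
  obtain ⟨z, hz⟩ := zb_of_pow_eq_one (Nat.pos_of_ne_zero hn) h.pow_eq_one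
  refine ⟨z, ?_⟩
  have hinj : Function.Injective (algebraMap Zb ℂ) := FaithfulSMul.algebraMap_injective Zb ℂ
  refine IsPrimitiveRoot.of_map_of_injective (f := algebraMap Zb ℂ) ?_ hinj
  have : algebraMap Zb ℂ z = (z : ℂ) := rfl
  rw [this, hz]
  exact h

include hℓ in
/-- every integer prime to `ℓ` is congruent mod `𝔪` to an `(ℓ-1)`-th root of unity -/
theorem e1T_exists_root (hℓ𝔪 : ((ℓ : ℕ) : Zb) ∈ 𝔪) (b : ℕ) (hb : ¬ ℓ ∣ b) :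
    ∃ w : Zb, w ^ (ℓ - 1) = 1 ∧ (b : Zb) - w ∈ 𝔪 := by
  have : Fact ℓ.Prime := ⟨hℓ⟩
  have hn : 0 < ℓ - 1 := by have := hℓ.two_le; omega
  obtain ⟨ζ, hζ⟩ := e1T_exists_primitiveRoot hℓ
  have hprod := X_pow_sub_C_eq_prod hζ hn (one_pow (ℓ - 1) : (1 : Zb) ^ (ℓ - 1) = 1)
  have hev := congrArg (Polynomial.eval (b : Zb)) hprod
  simp only [eval_sub, eval_pow, eval_X, eval_C, eval_prod, mul_one] at hev
  -- Fermat
  have hF : ((b : ZMod ℓ)) ^ (ℓ - 1) = 1 := by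
    apply ZMod.pow_card_sub_one_eq_one
    rwa [Ne, ZMod.natCast_eq_zero_iff]
  have hdvd : (ℓ : ℤ) ∣ (b : ℤ) ^ (ℓ - 1) - 1 := by
    rw [← ZMod.intCast_zmod_eq_zero_iff_dvd]
    push_cast
    rw [hF, sub_self]
  obtain ⟨t, ht⟩ := hdvd
  have hmem : (b : Zb) ^ (ℓ - 1) - 1 ∈ 𝔪 := by
    have h1 : ((b : Zb) ^ (ℓ - 1) - 1) = (((b : ℤ) ^ (ℓ - 1) - 1 : ℤ) : Zb) := by push_cast; rfl
    rw [h1, ht]
    push_cast
    exact 𝔪.mul_mem_right _ hℓ𝔪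
  rw [hev] at hmem
  obtain ⟨i, -, hi⟩ := (h𝔪.isPrime.prod_mem_iff).mp hmem
  refine ⟨ζ ^ i, ?_, hi⟩
  rw [← pow_mul, mul_comm, pow_mul, hζ.pow_eq_one, one_pow]

end Root

section Char

variable {ℓ : ℕ} [hF : Fact ℓ.Prime] (𝔪 : Ideal Zb) [h𝔪 : 𝔪.IsMaximal]

/-- `ℤ̄ ⧸ 𝔪` has characteristic `ℓ` -/
theorem e1T_charP (hℓ𝔪 : ((ℓ : ℕ) : Zb) ∈ 𝔪) : CharP (Zb ⧸ 𝔪) ℓ := by
  haveI : Nontrivial (Zb ⧸ 𝔪) := Ideal.Quotient.nontrivial_iff.mpr h𝔪.ne_top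
  rw [CharP.charP_iff_prime_eq_zero hF.out]
  rw [← map_natCast (Ideal.Quotient.mk 𝔪), Ideal.Quotient.eq_zero_iff_mem]
  exact hℓ𝔪

/-- the reduction of the representative `x.val` -/
theorem e1T_mk_val (hℓ𝔪 : ((ℓ : ℕ) : Zb) ∈ 𝔪) (x : ZMod ℓ) :
    haveI := e1T_charP 𝔪 hℓ𝔪
    Ideal.Quotient.mk 𝔪 ((x.val : ℕ) : Zb) = ZMod.castHom (dvd_refl ℓ) (Zb ⧸ 𝔪) x := by
  haveI := e1T_charP 𝔪 hℓ𝔪
  rw [map_natCast, ZMod.castHom_apply, ZMod.natCast_val]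

/-- the inverse Teichmüller character on units -/
theorem e1T_exists_unitHom (hℓ𝔪 : ((ℓ : ℕ) : Zb) ∈ 𝔪) :
    ∃ χ : (ZMod ℓ)ˣ →* ℂˣ, ∀ u : (ZMod ℓ)ˣ, ∃ w : Zb, (w : ℂ) = (χ u : ℂ) ∧
      (((u : ZMod ℓ).val : ℕ) : Zb) * w - 1 ∈ 𝔪 := by
  have hℓ : ℓ.Prime := hF.out
  haveI := e1T_charP 𝔪 hℓ𝔪
  have hn : ℓ - 1 ≠ 0 := by have := hℓ.two_le; omega
  obtain ⟨g, hg⟩ := IsCyclic.exists_generator (α := (ZMod ℓ)ˣ)
  set b : ℕ := ((g⁻¹ : (ZMod ℓ)ˣ) : ZMod ℓ).val with hb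
  have hbdvd : ¬ ℓ ∣ b := by
    rw [← ZMod.natCast_eq_zero_iff, hb, ZMod.natCast_zmod_val]
    exact Units.ne_zero _
  obtain ⟨w, hw1, hwm⟩ := e1T_exists_root hℓ 𝔪 hℓ𝔪 b hbdvd
  have hwC : (w : ℂ) ^ (ℓ - 1) = 1 := by
    have := congrArg (fun z : Zb => (z : ℂ)) hw1
    simpa using this
  set wU : ℂˣ := Units.ofPowEqOne (w : ℂ) (ℓ - 1) hwC hn with hwU
  have hwUval : (wU : ℂ) = (w : ℂ) := rfl
  have hwUpow : wU ^ (ℓ - 1) = 1 := by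
    ext
    rw [Units.val_pow_eq_pow_val, hwUval, hwC, Units.val_one]
  have hord : orderOf g = ℓ - 1 := by
    rw [orderOf_eq_card_of_forall_mem_zpowers hg, Nat.card_eq_fintype_card, ZMod.card_units]
  have hdvd : orderOf wU ∣ orderOf g := by
    rw [hord]
    exact orderOf_dvd_of_pow_eq_one hwUpow
  refine ⟨monoidHomOfForallMemZpowers hg hdvd, fun u => ?_⟩
  have hu : u ∈ Submonoid.powers g := mem_powers_iff_mem_zpowers.mpr (hg u)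
  obtain ⟨m, rfl⟩ := hu
  refine ⟨w ^ m, ?_, ?_⟩
  · rw [map_pow, monoidHomOfForallMemZpowers_apply_gen, Units.val_pow_eq_pow_val, hwUval]
    push_cast
    rfl
  · rw [← Ideal.Quotient.eq_zero_iff_mem, map_sub, map_mul, map_pow, map_one,
      e1T_mk_val 𝔪 hℓ𝔪]
    have h1 : Ideal.Quotient.mk 𝔪 w = ZMod.castHom (dvd_refl ℓ) (Zb ⧸ 𝔪) ((g⁻¹ : (ZMod ℓ)ˣ) : ZMod ℓ) := by
      rw [← e1T_mk_val 𝔪 hℓ𝔪, ← hb]
      symm
      rw [← sub_eq_zero, ← map_sub, Ideal.Quotient.eq_zero_iff_mem]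
      exact hwm
    rw [h1, ← map_pow, ← map_mul, ← Units.val_pow_eq_pow_val]
    show (ZMod.castHom (dvd_refl ℓ) (Zb ⧸ 𝔪)) (((g ^ m : (ZMod ℓ)ˣ) : ZMod ℓ) *
      ((g⁻¹ ^ m : (ZMod ℓ)ˣ) : ZMod ℓ)) - 1 = 0
    rw [← Units.val_mul, ← mul_pow, mul_inv_cancel, one_pow, Units.val_one, map_one, sub_self]

/-- the inverse Teichmüller character, with integral values -/
theorem e1T_exists_char (hℓ𝔪 : ((ℓ : ℕ) : Zb) ∈ 𝔪) :
    ∃ ψ : DirichletCharacter ℂ ℓ, ∀ x : ZMod ℓ, ∃ w : Zb, (w : ℂ) = ψ x ∧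
      (x ≠ 0 → ((x.val : ℕ) : Zb) * w - 1 ∈ 𝔪) := by
  obtain ⟨χ, hχ⟩ := e1T_exists_unitHom 𝔪 hℓ𝔪
  refine ⟨MulChar.ofUnitHom χ, fun x => ?_⟩
  by_cases hx : x = 0
  · refine ⟨0, ?_, fun h => absurd hx h⟩
    rw [hx, MulChar.map_zero]
    rfl
  · obtain ⟨w, hw, hwm⟩ := hχ (Units.mk0 x hx)
    refine ⟨w, ?_, fun _ => hwm⟩
    rw [hw, ← MulChar.ofUnitHom_coe]
    rfl

end Char

section Final

/-- **E1-teich.** -/
theorem stmtE1Teich : StmtE1Teich := by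
  intro ℓ _ hℓ h3 𝔪 h𝔪 hℓ𝔪
  haveI : Fact ℓ.Prime := ⟨hℓ⟩
  haveI := h𝔪
  haveI := e1T_charP 𝔪 hℓ𝔪
  have hne : (1 : Zb) ∉ 𝔪 := fun h => h𝔪.ne_top ((Ideal.eq_top_iff_one 𝔪).mpr h)
  obtain ⟨ψ, hψ⟩ := e1T_exists_char 𝔪 hℓ𝔪
  choose W hW hWm using hψ
  have hinj : Function.Injective (fun z : Zb => (z : ℂ)) := Subtype.val_injective
  -- congruence for natural numbers
  have hnat : ∀ a : ℕ, ¬ ℓ ∣ a → (a : Zb) * W (a : ZMod ℓ) - 1 ∈ 𝔪 := by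
    intro a ha
    have hx : (a : ZMod ℓ) ≠ 0 := by rwa [Ne, ZMod.natCast_eq_zero_iff]
    have h1 := hWm (a : ZMod ℓ) hx
    have h2 : (a : Zb) - (((a : ZMod ℓ).val : ℕ) : Zb) ∈ 𝔪 := by
      rw [ZMod.val_natCast]
      have : (a : Zb) - ((a % ℓ : ℕ) : Zb) = ((ℓ : ℕ) : Zb) * ((a / ℓ : ℕ) : Zb) := by
        have := Nat.div_add_mod a ℓ
        have h3 : (a : Zb) = ((ℓ * (a / ℓ) + a % ℓ : ℕ) : Zb) := by rw [this]
        rw [h3]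
        push_cast
        ring
      rw [this]
      exact 𝔪.mul_mem_right _ hℓ𝔪
    have h3 : (a : Zb) * W (a : ZMod ℓ) - 1 =
        ((((a : ZMod ℓ).val : ℕ) : Zb) * W (a : ZMod ℓ) - 1) +
          ((a : Zb) - (((a : ZMod ℓ).val : ℕ) : Zb)) * W (a : ZMod ℓ) := by ring
    rw [h3]
    exact 𝔪.add_mem h1 (𝔪.mul_mem_right _ h2)
  -- oddness
  have hodd : ψ (-1) = -1 := by
    have hsq : ψ (-1) * ψ (-1) = 1 := by
      rw [← map_mul, neg_mul_neg, one_mul, map_one]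
    have hcases : ψ (-1) = 1 ∨ ψ (-1) = -1 := mul_self_eq_one_iff.mp hsq
    rcases hcases with h1 | h1
    · exfalso
      have hW1 : W (-1) = 1 := by
        apply hinj
        show (W (-1) : ℂ) = ((1 : Zb) : ℂ)
        rw [hW, h1]
        rfl
      have hl1 : ¬ ℓ ∣ ℓ - 1 := fun h => by
        have := Nat.le_of_dvd (by omega) h
        omega
      have h2 := hnat (ℓ - 1) hl1
      have hcast : (((ℓ - 1 : ℕ)) : ZMod ℓ) = -1 := by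
        rw [Nat.cast_sub (by omega : 1 ≤ ℓ), ZMod.natCast_self, Nat.cast_one, zero_sub]
      rw [hcast, hW1, mul_one, Nat.cast_sub (by omega : 1 ≤ ℓ), Nat.cast_one] at h2
      -- `ℓ - 2 ∈ 𝔪`, so `2 ∈ 𝔪`
      have h2m : (2 : Zb) ∈ 𝔪 := by
        have : (2 : Zb) = ((ℓ : ℕ) : Zb) - (((ℓ : ℕ) : Zb) - 1 - 1) := by ring
        rw [this]
        exact 𝔪.sub_mem hℓ𝔪 h2
      obtain ⟨t, ht⟩ : ∃ t, ℓ = 2 * t + 1 := by
        rcases hℓ.eq_two_or_odd with h | h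
        · omega
        · exact ⟨ℓ / 2, by omega⟩
      apply hne
      have : (1 : Zb) = ((ℓ : ℕ) : Zb) - 2 * ((t : ℕ) : Zb) := by
        rw [ht]; push_cast; ring
      rw [this]
      exact 𝔪.sub_mem hℓ𝔪 (𝔪.mul_mem_right _ h2m)
    · exact h1
  -- the coefficients
  let c : ℕ → Zb := fun n =>
    if n = 0 then ∑ j : ZMod ℓ, ((j.val : ℕ) : Zb) * W j
    else -(2 * ((ℓ : ℕ) : Zb)) * ∑ d ∈ n.divisors, W ((d : ℕ) : ZMod ℓ)
  refine ⟨ψ, c, hodd, fun a ha => ⟨W (a : ZMod ℓ), hW _, hnat a ha⟩, ?_, ?_, ?_⟩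
  · intro n
    by_cases hn : n = 0
    · simp only [c, e1IntCoeff, hn, if_true]
      rw [← Subalgebra.coe_val, map_sum]
      refine Finset.sum_congr rfl fun j _ => ?_
      rw [map_mul, map_natCast, Subalgebra.coe_val, hW]
    · simp only [c, e1IntCoeff, hn, if_false]
      rw [← Subalgebra.coe_val, map_mul, map_neg, map_mul, map_sum, map_natCast, map_ofNat]
      congr 1
      refine Finset.sum_congr rfl fun d _ => ?_
      rw [Subalgebra.coe_val, hW]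
  · -- `c 0 ≡ -1`
    simp only [c, if_true]
    intro hmem
    rw [← Ideal.Quotient.eq_zero_iff_mem, map_sum] at hmem
    have hterm : ∀ j : ZMod ℓ, Ideal.Quotient.mk 𝔪 (((j.val : ℕ) : Zb) * W j) =
        if j = 0 then 0 else 1 := by
      intro j
      by_cases hj : j = 0
      · simp [hj]
      · rw [if_neg hj]
        have := hWm j hj
        rw [← Ideal.Quotient.eq_zero_iff_mem, map_sub, map_one, sub_eq_zero] at this
        exact this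
    rw [Finset.sum_congr rfl fun j _ => hterm j] at hmem
    rw [Finset.sum_ite, Finset.sum_const_zero, zero_add, Finset.sum_const, nsmul_eq_mul, mul_one,
      Finset.filter_ne' , Finset.card_erase_of_mem (Finset.mem_univ _), Finset.card_univ,
      ZMod.card] at hmem
    have h1 : ((ℓ - 1 : ℕ) : Zb ⧸ 𝔪) = -1 := by
      rw [Nat.cast_sub (by omega : 1 ≤ ℓ), CharP.cast_eq_zero, Nat.cast_one, zero_sub]
    rw [h1, neg_eq_zero] at hmem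
    haveI : Nontrivial (Zb ⧸ 𝔪) := Ideal.Quotient.nontrivial_iff.mpr h𝔪.ne_top
    exact one_ne_zero hmem
  · intro n hn
    simp only [c, hn, if_false]
    rw [neg_mul, mul_assoc, mul_comm (2 : Zb), mul_assoc]
    exact 𝔪.neg_mem (𝔪.mul_mem_right _ hℓ𝔪)

end Final

end Fermat.Agent.S48
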