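import Mathlib
import Fermat.Agent.S48.E1.Plan

/-!
# S48 / E1-zeta: the Weierstrass `ζ`-function of `ℤ τ + ℤ` as a lattice sum

* `e1Zeta τ z = ∑_{(m,n)} (1/(z - w) + 1/w + z/w²)`, `w = m τ + n` (absolutely convergent);
* homogeneity `e1Zeta (γ τ) (z / (c τ + d)) = (c τ + d) e1Zeta τ z` (`e1Zeta_smul`);
* rows: `e1Zeta τ z = ∑_m (π cot(π (z - m τ)) + π cot(π m τ) + z · e2Summand m τ)`
  (`e1Zeta_hasSum_rows`);
* quasi-periods `η₂ = ∑_m e2Summand m τ`, `η₁ = τ η₂ - 2πi` (Legendre, by telescoping)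
  (`e1Zeta_add_lattice`);
* `stmtE1Law : StmtE1Law`, `stmtE1Per : StmtE1Per`.
-/

set_option autoImplicit false

open Complex Filter Topology
open UpperHalfPlane hiding I
open scoped Real MatrixGroups

noncomputable section

namespace Fermat.Agent.S48


/-- the lattice point `m τ + n` -/
def e1W (τ : ℂ) (p : ℤ × ℤ) : ℂ := (p.1 : ℂ) * τ + (p.2 : ℂ)

/-- the summand of the Weierstrass `ζ`-function (for `p = 0` it is `1/z`, as `1/0 = 0`) -/
def e1Term (τ z : ℂ) (p : ℤ × ℤ) : ℂ :=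
  1 / (z - e1W τ p) + 1 / e1W τ p + z / e1W τ p ^ 2

/-- the Weierstrass `ζ`-function of the lattice `ℤ τ + ℤ` -/
def e1Zeta (τ z : ℂ) : ℂ := ∑' p : ℤ × ℤ, e1Term τ z p

theorem e1Term_eq {τ z : ℂ} {p : ℤ × ℤ} (hw : e1W τ p ≠ 0) (hz : z - e1W τ p ≠ 0) :
    e1Term τ z p = z ^ 2 / (e1W τ p ^ 2 * (z - e1W τ p)) := by
  unfold e1Term
  field_simp
  ring

theorem e1W_eq_zero_iff (τ : ℍ) (p : ℤ × ℤ) : e1W τ p = 0 ↔ p = 0 := by
  constructor
  · intro h
    have him := congrArg Complex.im h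
    have hre := congrArg Complex.re h
    simp only [e1W, add_im, mul_im, intCast_re, intCast_im, zero_mul, add_zero, zero_im,
      add_re, mul_re, sub_zero, zero_re, UpperHalfPlane.coe_im, UpperHalfPlane.coe_re] at him hre
    have h1 : (p.1 : ℝ) = 0 := by
      rcases mul_eq_zero.mp him with h | h
      · exact h
      · exact absurd h τ.im_ne_zero
    rw [h1, zero_mul, zero_add] at hre
    ext
    · exact_mod_cast h1
    · exact_mod_cast hre
  · rintro rfl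
    simp [e1W]

theorem e1W_norm_ge (τ : ℍ) (p : ℤ × ℤ) :
    EisensteinSeries.r τ * ‖(![p.1, p.2] : Fin 2 → ℤ)‖ ≤ ‖e1W τ p‖ := by
  by_cases hp : (![p.1, p.2] : Fin 2 → ℤ) = 0
  · rw [hp, norm_zero, mul_zero]
    exact norm_nonneg _
  · have := EisensteinSeries.r_mul_max_le τ hp
    simpa [e1W] using this

theorem e1Term_summable (τ : ℍ) (z : ℂ) : Summable (e1Term τ z) := by
  rw [← (finTwoArrowEquiv ℤ).summable_iff]
  set r := EisensteinSeries.r τ with hr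
  have hrpos : 0 < r := EisensteinSeries.r_pos τ
  have hg : Summable fun x : Fin 2 → ℤ => 2 * ‖z‖ ^ 2 * r ^ (-3 : ℝ) * ‖x‖ ^ (-3 : ℝ) :=
    (EisensteinSeries.summable_one_div_norm_rpow (k := 3) (by norm_num)).mul_left _
  refine Summable.of_norm_bounded_eventually hg ?_
  have hcof : ∀ᶠ x : Fin 2 → ℤ in cofinite, 2 * ‖z‖ / r + 1 ≤ ‖x‖ := by
    have h1 := tendsto_norm_cocompact_atTop (E := Fin 2 → ℤ)
    rw [cocompact_eq_cofinite] at h1
    exact h1.eventually (eventually_ge_atTop _)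
  filter_upwards [hcof] with x hx
  have hxpos : 0 < ‖x‖ := lt_of_lt_of_le (by positivity) hx
  have hx0 : x ≠ 0 := by
    rintro rfl
    simp at hxpos
  set p : ℤ × ℤ := finTwoArrowEquiv ℤ x with hp
  have hxp : (![p.1, p.2] : Fin 2 → ℤ) = x := by
    ext i
    fin_cases i <;> simp [hp, finTwoArrowEquiv]
  have hw := e1W_norm_ge τ p
  rw [hxp] at hw
  have hwpos : 0 < ‖e1W τ p‖ := lt_of_lt_of_le (by positivity) hw
  have hw0 : e1W τ p ≠ 0 := norm_pos_iff.mp hwpos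
  have hzw : 2 * ‖z‖ < ‖e1W τ p‖ := by
    have h2 : 2 * ‖z‖ / r + 1 ≤ ‖x‖ := hx
    have h3 : 2 * ‖z‖ + r ≤ r * ‖x‖ := by
      have := mul_le_mul_of_nonneg_left h2 hrpos.le
      rw [mul_add, mul_div_cancel₀ _ hrpos.ne', mul_one] at this
      exact this
    linarith
  have hdiff : ‖e1W τ p‖ / 2 ≤ ‖z - e1W τ p‖ := by
    have := norm_sub_norm_le (e1W τ p) z
    rw [norm_sub_rev] at this
    have hz0 : 0 ≤ ‖z‖ := norm_nonneg _
    linarith
  have hdpos : 0 < ‖z - e1W τ p‖ := lt_of_lt_of_le (by positivity) hdiff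
  have hzne : z - e1W τ p ≠ 0 := norm_pos_iff.mp hdpos
  show ‖e1Term τ z p‖ ≤ _
  rw [e1Term_eq hw0 hzne, norm_div, norm_mul, norm_pow, norm_pow]
  rw [div_le_iff₀ (by positivity)]
  have hrx : (r * ‖x‖) ^ 3 ≤ ‖e1W τ p‖ ^ 3 := pow_le_pow_left₀ (by positivity) hw 3
  have hx3 : ‖x‖ ^ (-3 : ℝ) = (‖x‖ ^ 3)⁻¹ := by
    rw [Real.rpow_neg hxpos.le]
    norm_cast
  have hr3 : r ^ (-3 : ℝ) = (r ^ 3)⁻¹ := by
    rw [Real.rpow_neg hrpos.le]
    norm_cast
  rw [hx3, hr3]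
  have h5 : ‖e1W τ p‖ ^ 3 / 2 ≤ ‖e1W τ p‖ ^ 2 * ‖z - e1W τ p‖ := by
    have := mul_le_mul_of_nonneg_left hdiff (sq_nonneg ‖e1W τ p‖)
    calc ‖e1W τ p‖ ^ 3 / 2 = ‖e1W τ p‖ ^ 2 * (‖e1W τ p‖ / 2) := by ring
      _ ≤ _ := this
  have h6 : 2 * ‖z‖ ^ 2 * (r ^ 3)⁻¹ * (‖x‖ ^ 3)⁻¹ * ((r * ‖x‖) ^ 3 / 2) = ‖z‖ ^ 2 := by
    field_simp
  calc ‖z‖ ^ 2 = 2 * ‖z‖ ^ 2 * (r ^ 3)⁻¹ * (‖x‖ ^ 3)⁻¹ * ((r * ‖x‖) ^ 3 / 2) := h6.symm
    _ ≤ 2 * ‖z‖ ^ 2 * (r ^ 3)⁻¹ * (‖x‖ ^ 3)⁻¹ * (‖e1W τ p‖ ^ 2 * ‖z - e1W τ p‖) := by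
        apply mul_le_mul_of_nonneg_left _ (by positivity)
        exact le_trans (by linarith) h5


/-! ### Homogeneity: the action of `SL₂(ℤ)` -/

/-- the right action of `γ` on row vectors, as a permutation of `ℤ × ℤ` -/
def e1Act (γ : SL(2, ℤ)) : ℤ × ℤ ≃ ℤ × ℤ where
  toFun p := (p.1 * γ 0 0 + p.2 * γ 1 0, p.1 * γ 0 1 + p.2 * γ 1 1)
  invFun p := (p.1 * γ 1 1 - p.2 * γ 1 0, -(p.1 * γ 0 1) + p.2 * γ 0 0)
  left_inv p := by
    have hdet : γ 0 0 * γ 1 1 - γ 0 1 * γ 1 0 = 1 := by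
      have := γ.2
      rwa [Matrix.det_fin_two] at this
    ext
    · simp only
      linear_combination p.1 * hdet
    · simp only
      linear_combination p.2 * hdet
  right_inv p := by
    have hdet : γ 0 0 * γ 1 1 - γ 0 1 * γ 1 0 = 1 := by
      have := γ.2
      rwa [Matrix.det_fin_two] at this
    ext
    · simp only
      linear_combination p.1 * hdet
    · simp only
      linear_combination p.2 * hdet

theorem e1Act_apply (γ : SL(2, ℤ)) (p : ℤ × ℤ) :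
    e1Act γ p = (p.1 * γ 0 0 + p.2 * γ 1 0, p.1 * γ 0 1 + p.2 * γ 1 1) := rfl

/-- the automorphy factor `c τ + d` -/
def e1J (γ : SL(2, ℤ)) (τ : ℂ) : ℂ := (γ 1 0 : ℂ) * τ + (γ 1 1 : ℂ)

theorem e1J_ne_zero (γ : SL(2, ℤ)) (τ : ℍ) : e1J γ τ ≠ 0 := by
  have h := UpperHalfPlane.denom_ne_zero γ τ
  rwa [ModularGroup.denom_apply] at h

theorem e1_coe_smul (γ : SL(2, ℤ)) (τ : ℍ) :
    ((γ • τ : ℍ) : ℂ) = ((γ 0 0 : ℂ) * τ + (γ 0 1 : ℂ)) / e1J γ τ := by
  rw [UpperHalfPlane.coe_specialLinearGroup_apply]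
  simp [e1J]

theorem e1W_smul (γ : SL(2, ℤ)) (τ : ℍ) (p : ℤ × ℤ) :
    e1W ((γ • τ : ℍ) : ℂ) p = e1W τ (e1Act γ p) / e1J γ τ := by
  have hj := e1J_ne_zero γ τ
  rw [e1_coe_smul, e1Act_apply]
  unfold e1W
  simp only
  push_cast
  field_simp
  unfold e1J
  ring

theorem e1_div_div_sq (a b j : ℂ) (hj : j ≠ 0) : a / j / (b / j) ^ 2 = j * (a / b ^ 2) := by
  by_cases hb : b = 0
  · simp [hb]
  · field_simp

theorem e1Term_smul (γ : SL(2, ℤ)) (τ : ℍ) (z : ℂ) (p : ℤ × ℤ) :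
    e1Term ((γ • τ : ℍ) : ℂ) (z / e1J γ τ) p = e1J γ τ * e1Term τ z (e1Act γ p) := by
  have hj := e1J_ne_zero γ τ
  unfold e1Term
  rw [e1W_smul, ← sub_div, one_div_div, one_div_div, e1_div_div_sq _ _ _ hj]
  ring

/-- homogeneity of `ζ` -/
theorem e1Zeta_smul (γ : SL(2, ℤ)) (τ : ℍ) (z : ℂ) :
    e1Zeta ((γ • τ : ℍ) : ℂ) (z / e1J γ τ) = e1J γ τ * e1Zeta τ z := by
  unfold e1Zeta
  simp_rw [e1Term_smul]
  rw [tsum_mul_left]
  congr 1
  exact (e1Act γ).tsum_eq (e1Term τ z)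


/-! ### Rows -/


theorem e1_cot_zero : Complex.cot 0 = 0 := by
  simp [Complex.cot]

/-- the partial fraction expansion of `π cot(π x)`, also for `x = 0` (Lean conventions) -/
theorem e1_hasSum_cotTerm {x : ℂ} (hx : x ∈ Complex.integerComplement ∨ x = 0) :
    HasSum (fun n : ℕ => 1 / (x - ((n : ℂ) + 1)) + 1 / (x + ((n : ℂ) + 1)))
      (π * Complex.cot (π * x) - 1 / x) := by
  rcases hx with hx | rfl
  · have h1 := (summable_cotTerm hx).hasSum
    rw [← cot_series_rep' hx] at h1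
    exact h1
  · have h0 : (fun n : ℕ => 1 / ((0 : ℂ) - ((n : ℂ) + 1)) + 1 / (0 + ((n : ℂ) + 1))) = fun _ => 0 := by
      funext n
      have hn : ((n : ℂ) + 1) ≠ 0 := by exact_mod_cast Nat.succ_ne_zero n
      field_simp
      ring
    rw [h0]
    simp [e1_cot_zero, hasSum_zero]

theorem e1_int_mul_mem (τ : ℍ) (m : ℤ) :
    (m : ℂ) * (τ : ℂ) ∈ Complex.integerComplement ∨ (m : ℂ) * (τ : ℂ) = 0 := by
  by_cases hm : m = 0
  · right
    simp [hm]
  · left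
    rw [Complex.mem_integerComplement_iff]
    rintro ⟨n, hn⟩
    have him := congrArg Complex.im hn
    simp only [intCast_im, mul_im, intCast_re, zero_mul, add_zero, UpperHalfPlane.coe_im] at him
    rcases mul_eq_zero.mp him.symm with h | h
    · exact hm (by exact_mod_cast h)
    · exact τ.im_ne_zero h


/-- the value of the `m`-th row of the lattice sum -/
def e1RowZ (τ : ℍ) (z : ℂ) (m : ℤ) : ℂ :=
  π * Complex.cot (π * (z - (m : ℂ) * τ)) + π * Complex.cot (π * ((m : ℂ) * τ)) +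
    z * EisensteinSeries.e2Summand m τ

theorem e1_eisSummand_two (τ : ℍ) (m n : ℤ) :
    EisensteinSeries.eisSummand 2 ![m, n] τ = 1 / ((m : ℂ) * τ + (n : ℂ)) ^ 2 := by
  simp only [EisensteinSeries.eisSummand, Matrix.cons_val_zero, Matrix.cons_val_one,
    Matrix.cons_val_fin_one]
  rw [zpow_neg, one_div]
  norm_cast

theorem e1_row_hasSum (τ : ℍ) (z : ℂ) (m : ℤ) (hz : ∀ n : ℤ, z ≠ e1W τ (m, n)) :
    HasSum (fun n : ℤ => e1Term τ z (m, n)) (e1RowZ τ z m) := by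
  set x : ℂ := z - (m : ℂ) * τ with hxdef
  set y : ℂ := (m : ℂ) * τ with hydef
  have hx : x ∈ Complex.integerComplement := by
    rw [Complex.mem_integerComplement_iff]
    rintro ⟨n, hn⟩
    apply hz n
    simp only [e1W]
    rw [hn, hxdef]
    ring
  have hy := e1_int_mul_mem τ m
  set g : ℤ → ℂ := fun n => EisensteinSeries.eisSummand 2 ![m, n] τ with hgdef
  have hgs : Summable g := EisensteinSeries.e2Summand_summable m τ
  have hg : ∀ n : ℤ, g n = 1 / (y + (n : ℂ)) ^ 2 := fun n => e1_eisSummand_two τ m n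
  set f : ℤ → ℂ := fun n => e1Term τ z (m, n) with hfdef
  have hfs : Summable f := (e1Term_summable τ z).prod_factor m
  have hf : ∀ n : ℤ, f n = 1 / (x - (n : ℂ)) + 1 / (y + (n : ℂ)) + z * g n := by
    intro n
    rw [hg n]
    simp only [hfdef, e1Term, e1W]
    rw [show z - ((m : ℂ) * (τ : ℂ) + (n : ℂ)) = x - (n : ℂ) by rw [hxdef]; ring]
    ring
  -- symmetric sums
  have hF1 := hfs.hasSum.nat_add_neg
  have hG1 := hgs.hasSum.nat_add_neg
  have hF2 := (hasSum_nat_add_iff' 1).mpr hF1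
  have hG2 := (hasSum_nat_add_iff' 1).mpr hG1
  simp only [Finset.sum_range_one, Nat.cast_zero, neg_zero, Nat.cast_add, Nat.cast_one] at hF2 hG2
  have hX := e1_hasSum_cotTerm (Or.inl hx)
  have hY := e1_hasSum_cotTerm hy
  have hT := (hX.add hY).add (hG2.mul_left z)
  have hcongr : (fun n : ℕ => f ((n : ℤ) + 1) + f (-((n : ℤ) + 1))) =
      fun n : ℕ => 1 / (x - ((n : ℂ) + 1)) + 1 / (x + ((n : ℂ) + 1)) +
        (1 / (y - ((n : ℂ) + 1)) + 1 / (y + ((n : ℂ) + 1))) +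
        z * (g ((n : ℤ) + 1) + g (-((n : ℤ) + 1))) := by
    funext n
    rw [hf, hf]
    push_cast
    rw [show x - -((n : ℂ) + 1) = x + ((n : ℂ) + 1) by ring,
      show y + -((n : ℂ) + 1) = y - ((n : ℂ) + 1) by ring]
    ring
  rw [hcongr] at hF2
  have huniq := hF2.unique hT
  have hf0 : f 0 = 1 / x + 1 / y + z * g 0 := by
    rw [hf 0]
    simp
  have htsum : ∑' n, f n = π * Complex.cot (π * x) + π * Complex.cot (π * y) + z * ∑' n, g n := by
    linear_combination huniq + hf0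
  have : e1RowZ τ z m = ∑' n, f n := by
    rw [htsum]
    rfl
  rw [this]
  exact hfs.hasSum


/-! ### Limits of the cotangent -/


theorem e1_cot_add_one (x : ℂ) : Complex.cot (π * (x + 1)) = Complex.cot (π * x) := by
  rw [Complex.cot_pi_eq_exp_ratio, Complex.cot_pi_eq_exp_ratio]
  have : cexp (2 * π * I * (x + 1)) = cexp (2 * π * I * x) := by
    rw [mul_add, Complex.exp_add, mul_one, Complex.exp_two_pi_mul_I, mul_one]
  rw [this]

theorem e1_cot_neg (x : ℂ) : Complex.cot (-x) = -Complex.cot x := by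
  simp [Complex.cot, Complex.sin_neg, Complex.cos_neg, div_neg]

/-- `cot(π (z + K τ)) → -i` as `K → ∞` -/
theorem e1_tendsto_cot_up (τ : ℍ) (z : ℂ) :
    Tendsto (fun K : ℕ => Complex.cot (π * (z + (K : ℂ) * τ))) atTop (𝓝 (-I)) := by
  have hq : ‖cexp (2 * π * I * τ)‖ < 1 := UpperHalfPlane.norm_exp_two_pi_I_lt_one τ
  have h1 : Tendsto (fun K : ℕ => cexp (2 * π * I * z) * cexp (2 * π * I * τ) ^ K) atTop
      (𝓝 (cexp (2 * π * I * z) * 0)) :=
    (tendsto_pow_atTop_nhds_zero_of_norm_lt_one hq).const_mul _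
  rw [mul_zero] at h1
  have h2 : ∀ K : ℕ, cexp (2 * π * I * (z + (K : ℂ) * τ)) =
      cexp (2 * π * I * z) * cexp (2 * π * I * τ) ^ K := by
    intro K
    rw [← Complex.exp_nat_mul, ← Complex.exp_add]
    congr 1
    ring
  have h3 : Tendsto (fun K : ℕ => (cexp (2 * π * I * (z + (K : ℂ) * τ)) + 1) /
      (I * (1 - cexp (2 * π * I * (z + (K : ℂ) * τ))))) atTop (𝓝 ((0 + 1) / (I * (1 - 0)))) := by
    simp_rw [h2]
    apply Tendsto.div (h1.add_const 1) ((tendsto_const_nhds.sub h1).const_mul I)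
    simp
  have h4 : ((0 : ℂ) + 1) / (I * (1 - 0)) = -I := by
    simp [Complex.inv_I]
  rw [h4] at h3
  refine h3.congr fun K => ?_
  rw [Complex.cot_pi_eq_exp_ratio]

/-- `cot(π (z - K τ)) → i` as `K → ∞` -/
theorem e1_tendsto_cot_down (τ : ℍ) (z : ℂ) :
    Tendsto (fun K : ℕ => Complex.cot (π * (z - (K : ℂ) * τ))) atTop (𝓝 I) := by
  have h := (e1_tendsto_cot_up τ (-z)).neg
  rw [neg_neg] at h
  refine h.congr fun K => ?_
  rw [← e1_cot_neg]
  congr 1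
  ring

/-! ### The row formula and the quasi-periods -/

/-- `z` is not a lattice point -/
def e1Off (τ z : ℂ) : Prop := ∀ p : ℤ × ℤ, z ≠ e1W τ p

theorem e1Off_add {τ z : ℂ} (hz : e1Off τ z) (q : ℤ × ℤ) : e1Off τ (z + e1W τ q) := by
  intro p hp
  apply hz (p - q)
  have : e1W τ (p - q) = e1W τ p - e1W τ q := by
    simp only [e1W, Prod.fst_sub, Prod.snd_sub]
    push_cast
    ring
  rw [this, ← hp]
  ring

theorem e1Off_add_one {τ z : ℂ} (hz : e1Off τ z) : e1Off τ (z + 1) := by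
  have := e1Off_add hz (0, 1)
  simpa [e1W] using this

theorem e1Off_add_tau {τ z : ℂ} (hz : e1Off τ z) : e1Off τ (z + τ) := by
  have := e1Off_add hz (1, 0)
  simpa [e1W] using this

theorem e1Off_sub_one {τ z : ℂ} (hz : e1Off τ z) : e1Off τ (z - 1) := by
  have := e1Off_add hz (0, -1)
  simpa [e1W, sub_eq_add_neg] using this

theorem e1Off_sub_tau {τ z : ℂ} (hz : e1Off τ z) : e1Off τ (z - τ) := by
  have := e1Off_add hz (-1, 0)
  simpa [e1W, sub_eq_add_neg] using this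

/-- the lattice sum, summed by rows -/
theorem e1Zeta_hasSum_rows (τ : ℍ) (z : ℂ) (hz : e1Off τ z) :
    HasSum (e1RowZ τ z) (e1Zeta τ z) :=
  (e1Term_summable τ z).hasSum.prod_fiberwise
    (fun m => e1_row_hasSum τ z m (fun n => hz (m, n)))

/-- the quasi-period `η₂ = ζ(z + 1) - ζ(z)` -/
def e1Eta2 (τ : ℍ) : ℂ := ∑' m : ℤ, EisensteinSeries.e2Summand m τ

/-- the quasi-period `η₁ = ζ(z + τ) - ζ(z)` (Legendre's relation) -/
def e1Eta1 (τ : ℍ) : ℂ := (τ : ℂ) * e1Eta2 τ - 2 * π * I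

theorem e1_e2_hasSum (τ : ℍ) (z : ℂ) (hz : e1Off τ z) :
    HasSum (fun m : ℤ => EisensteinSeries.e2Summand m τ) (e1Zeta τ (z + 1) - e1Zeta τ z) := by
  have h := (e1Zeta_hasSum_rows τ (z + 1) (e1Off_add_one hz)).sub (e1Zeta_hasSum_rows τ z hz)
  refine h.congr_fun ?_
  intro m
  simp only [e1RowZ]
  rw [show z + 1 - (m : ℂ) * (τ : ℂ) = (z - (m : ℂ) * (τ : ℂ)) + 1 by ring, e1_cot_add_one]
  ring

/-- a lattice point off which everything is defined -/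
theorem e1Off_half (τ : ℍ) : e1Off τ ((τ : ℂ) / 2) := by
  intro p hp
  have him := congrArg Complex.im hp
  have hre := congrArg Complex.re hp
  simp only [e1W, add_im, mul_im, intCast_re, intCast_im, zero_mul, add_zero,
    add_re, mul_re, sub_zero, UpperHalfPlane.coe_im, UpperHalfPlane.coe_re,
    Complex.div_ofNat_im, Complex.div_ofNat_re] at him hre
  have h1 : (1 : ℝ) / 2 = (p.1 : ℝ) := by
    have hτ := τ.im_ne_zero
    field_simp at him ⊢
    linarith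
  have h2 : (1 : ℝ) = 2 * (p.1 : ℝ) := by linarith
  have h3 : (1 : ℤ) = 2 * p.1 := by exact_mod_cast h2
  omega

theorem e1Eta2_summable (τ : ℍ) : Summable fun m : ℤ => EisensteinSeries.e2Summand m τ :=
  (e1_e2_hasSum τ _ (e1Off_half τ)).summable

theorem e1Zeta_add_one (τ : ℍ) (z : ℂ) (hz : e1Off τ z) :
    e1Zeta τ (z + 1) = e1Zeta τ z + e1Eta2 τ := by
  have h := (e1_e2_hasSum τ z hz).tsum_eq
  unfold e1Eta2
  rw [h]
  ring

theorem e1_tele_hasSum (τ : ℍ) (z : ℂ) (hz : e1Off τ z) :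
    HasSum (fun m : ℤ => π * Complex.cot (π * (z - ((m : ℂ) - 1) * τ)) -
        π * Complex.cot (π * (z - (m : ℂ) * τ)))
      (e1Zeta τ (z + τ) - e1Zeta τ z - (τ : ℂ) * e1Eta2 τ) := by
  have h := ((e1Zeta_hasSum_rows τ (z + τ) (e1Off_add_tau hz)).sub
    (e1Zeta_hasSum_rows τ z hz)).sub ((e1Eta2_summable τ).hasSum.mul_left (τ : ℂ))
  refine h.congr_fun ?_
  intro m
  simp only [e1RowZ]
  rw [show z + (τ : ℂ) - (m : ℂ) * (τ : ℂ) = z - ((m : ℂ) - 1) * τ by ring]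
  ring

theorem e1_tele_value (τ : ℍ) (z : ℂ) (A : ℂ)
    (h : HasSum (fun m : ℤ => π * Complex.cot (π * (z - ((m : ℂ) - 1) * τ)) -
        π * Complex.cot (π * (z - (m : ℂ) * τ))) A) : A = -(2 * π * I) := by
  set c : ℤ → ℂ := fun m => π * Complex.cot (π * (z - (m : ℂ) * τ)) with hc
  have hh : (fun m : ℤ => π * Complex.cot (π * (z - ((m : ℂ) - 1) * τ)) -
        π * Complex.cot (π * (z - (m : ℂ) * τ))) = fun m : ℤ => c (m - 1) - c m := by
    funext m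
    simp only [hc]
    push_cast
    rfl
  rw [hh] at h
  have h1 := h.nat_add_neg.tendsto_sum_nat
  have h2 : ∀ K : ℕ, ∑ n ∈ Finset.range K, ((c ((n : ℤ) - 1) - c (n : ℤ)) +
      (c (-(n : ℤ) - 1) - c (-(n : ℤ)))) =
      (c (-1) - c 0) + (c (-(K : ℤ)) - c ((K : ℤ) - 1)) := by
    intro K
    induction K with
    | zero => simp
    | succ K ih =>
      rw [Finset.sum_range_succ, ih]
      push_cast
      rw [show (-((K : ℤ) + 1)) = -(K : ℤ) - 1 by ring, show ((K : ℤ) + 1 - 1) = (K : ℤ) by ring]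
      ring
  simp_rw [h2] at h1
  have hup : Tendsto (fun K : ℕ => c (-(K : ℤ))) atTop (𝓝 (π * (-I))) := by
    have := (e1_tendsto_cot_up τ z).const_mul (π : ℂ)
    refine this.congr fun K => ?_
    simp only [hc]
    congr 2
    push_cast
    ring
  have hdown : Tendsto (fun K : ℕ => c ((K : ℤ) - 1)) atTop (𝓝 (π * I)) := by
    have := (e1_tendsto_cot_down τ (z + τ)).const_mul (π : ℂ)
    refine this.congr fun K => ?_
    simp only [hc]
    congr 2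
    push_cast
    ring
  have h3 : Tendsto (fun K : ℕ => (c (-1) - c 0) + (c (-(K : ℤ)) - c ((K : ℤ) - 1))) atTop
      (𝓝 ((c (-1) - c 0) + (π * (-I) - π * I))) :=
    tendsto_const_nhds.add (hup.sub hdown)
  have h4 := tendsto_nhds_unique h1 h3
  rw [zero_sub] at h4
  linear_combination h4

theorem e1Zeta_add_tau (τ : ℍ) (z : ℂ) (hz : e1Off τ z) :
    e1Zeta τ (z + τ) = e1Zeta τ z + e1Eta1 τ := by
  have h := e1_tele_value τ z _ (e1_tele_hasSum τ z hz)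
  unfold e1Eta1
  linear_combination h

theorem e1Zeta_add_int (τ : ℍ) (z : ℂ) (hz : e1Off τ z) (n : ℤ) :
    e1Zeta τ (z + (n : ℂ)) = e1Zeta τ z + (n : ℂ) * e1Eta2 τ := by
  induction n using Int.induction_on with
  | zero => simp
  | succ n ih =>
    have hoff : e1Off τ (z + (n : ℂ)) := by
      have := e1Off_add hz (0, (n : ℤ))
      simpa [e1W] using this
    have := e1Zeta_add_one τ _ hoff
    push_cast at ih ⊢
    rw [← add_assoc, this, ih]
    ring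
  | pred n ih =>
    have hoff : e1Off τ (z + ((-(n : ℤ) - 1 : ℤ) : ℂ)) := by
      have := e1Off_add hz (0, (-(n : ℤ) - 1))
      simpa [e1W] using this
    have := e1Zeta_add_one τ _ hoff
    have h2 : z + ((-(n : ℤ) - 1 : ℤ) : ℂ) + 1 = z + ((-(n : ℤ) : ℤ) : ℂ) := by
      push_cast
      ring
    rw [h2, ih] at this
    push_cast at this ⊢
    linear_combination -this

theorem e1Zeta_add_int_tau (τ : ℍ) (z : ℂ) (hz : e1Off τ z) (m : ℤ) :
    e1Zeta τ (z + (m : ℂ) * τ) = e1Zeta τ z + (m : ℂ) * e1Eta1 τ := by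
  induction m using Int.induction_on with
  | zero => simp
  | succ m ih =>
    have hoff : e1Off τ (z + (m : ℂ) * τ) := by
      have := e1Off_add hz ((m : ℤ), 0)
      simpa [e1W] using this
    have := e1Zeta_add_tau τ _ hoff
    push_cast at ih ⊢
    rw [show z + ((m : ℂ) + 1) * (τ : ℂ) = z + (m : ℂ) * τ + τ by ring, this, ih]
    ring
  | pred m ih =>
    have hoff : e1Off τ (z + ((-(m : ℤ) - 1 : ℤ) : ℂ) * τ) := by
      have := e1Off_add hz ((-(m : ℤ) - 1), 0)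
      simpa [e1W] using this
    have := e1Zeta_add_tau τ _ hoff
    have h2 : z + ((-(m : ℤ) - 1 : ℤ) : ℂ) * τ + τ = z + ((-(m : ℤ) : ℤ) : ℂ) * τ := by
      push_cast
      ring
    rw [h2, ih] at this
    push_cast at this ⊢
    linear_combination -this

/-- quasi-periodicity of `ζ` -/
theorem e1Zeta_add_lattice (τ : ℍ) (z : ℂ) (hz : e1Off τ z) (p : ℤ × ℤ) :
    e1Zeta τ (z + e1W τ p) = e1Zeta τ z + (p.1 : ℂ) * e1Eta1 τ + (p.2 : ℂ) * e1Eta2 τ := by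
  have hoff : e1Off τ (z + (p.1 : ℂ) * τ) := by
    have := e1Off_add hz (p.1, 0)
    simpa [e1W] using this
  have h1 := e1Zeta_add_int τ _ hoff p.2
  have h2 := e1Zeta_add_int_tau τ z hz p.1
  rw [show z + e1W τ p = z + (p.1 : ℂ) * τ + (p.2 : ℂ) by simp only [e1W]; ring, h1, h2]

/-! ### The division values -/

theorem e1Pt_eq (N : ℕ) (a b : ℤ) (τ : ℂ) : e1Pt N a b τ = e1W τ (a, b) / (N : ℂ) := rfl

/-- the torsion point is not a lattice point -/
theorem e1Off_pt (N : ℕ) [NeZero N] (a b : ℤ) (h : ¬ ((N : ℤ) ∣ a ∧ (N : ℤ) ∣ b)) (τ : ℍ) :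
    e1Off τ (e1Pt N a b τ) := by
  intro p hp
  apply h
  have hN : (N : ℂ) ≠ 0 := Nat.cast_ne_zero.mpr (NeZero.ne N)
  have h1 : e1W τ (a - N * p.1, b - N * p.2) = 0 := by
    rw [e1Pt_eq, div_eq_iff hN] at hp
    simp only [e1W] at hp ⊢
    push_cast
    linear_combination hp
  have h2 := (e1W_eq_zero_iff τ _).mp h1
  have h3 : a - N * p.1 = 0 := congrArg Prod.fst h2
  have h4 : b - N * p.2 = 0 := congrArg Prod.snd h2
  exact ⟨⟨p.1, by linarith⟩, ⟨p.2, by linarith⟩⟩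

theorem e1Row_hasSum (N : ℕ) [NeZero N] (a b : ℤ) (h : ¬ ((N : ℤ) ∣ a ∧ (N : ℤ) ∣ b)) (τ : ℍ) :
    HasSum (e1Row N a b τ) (e1Zeta τ (e1Pt N a b τ) - e1Pt N a b τ * e1Eta2 τ) := by
  have h1 := (e1Zeta_hasSum_rows τ _ (e1Off_pt N a b h τ)).sub
    ((e1Eta2_summable τ).hasSum.mul_left (e1Pt N a b τ))
  refine h1.congr_fun ?_
  intro m
  simp only [e1Row, e1RowZ]
  ring

/-- the rows are summable -/
theorem e1Row_summable (N : ℕ) [NeZero N] (a b : ℤ) (h : ¬ ((N : ℤ) ∣ a ∧ (N : ℤ) ∣ b))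
    (τ : ℍ) : Summable (e1Row N a b τ) :=
  (e1Row_hasSum N a b h τ).summable

/-- the row form of the division value is the division value of `ζ` -/
theorem e1Zrow_eq (N : ℕ) [NeZero N] (a b : ℤ) (h : ¬ ((N : ℤ) ∣ a ∧ (N : ℤ) ∣ b)) (τ : ℍ) :
    e1Zrow N a b τ =
      e1Zeta τ (e1Pt N a b τ) - ((a : ℂ) * e1Eta1 τ + (b : ℂ) * e1Eta2 τ) / (N : ℂ) := by
  have hN : (N : ℂ) ≠ 0 := Nat.cast_ne_zero.mpr (NeZero.ne N)
  unfold e1Zrow
  rw [(e1Row_hasSum N a b h τ).tsum_eq]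
  unfold e1Eta1 e1Pt
  field_simp
  ring

theorem e1_not_dvd_add (N : ℕ) (a b k l : ℤ) (h : ¬ ((N : ℤ) ∣ a ∧ (N : ℤ) ∣ b)) :
    ¬ ((N : ℤ) ∣ a + N * k ∧ (N : ℤ) ∣ b + N * l) := by
  rintro ⟨h1, h2⟩
  exact h ⟨(Int.dvd_add_left (dvd_mul_right _ _)).mp h1,
    (Int.dvd_add_left (dvd_mul_right _ _)).mp h2⟩

/-- **E1-per**: the division values only depend on `(a, b)` modulo `N`. -/
theorem stmtE1Per : StmtE1Per := by
  intro N _ a b k l h τ
  have hN : (N : ℂ) ≠ 0 := Nat.cast_ne_zero.mpr (NeZero.ne N)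
  rw [e1Zrow_eq N _ _ (e1_not_dvd_add N a b k l h) τ, e1Zrow_eq N a b h τ]
  have hpt : e1Pt N (a + N * k) (b + N * l) τ = e1Pt N a b τ + e1W τ (k, l) := by
    simp only [e1Pt, e1W]
    push_cast
    field_simp
    ring
  rw [hpt, e1Zeta_add_lattice τ _ (e1Off_pt N a b h τ)]
  push_cast
  field_simp
  ring

theorem e1_not_dvd_act (N : ℕ) (a b : ℤ) (γ : SL(2, ℤ)) (h : ¬ ((N : ℤ) ∣ a ∧ (N : ℤ) ∣ b)) :
    ¬ ((N : ℤ) ∣ a * γ 0 0 + b * γ 1 0 ∧ (N : ℤ) ∣ a * γ 0 1 + b * γ 1 1) := by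
  rintro ⟨h1, h2⟩
  apply h
  have hinv := (e1Act γ).left_inv (a, b)
  have ha : a = (a * γ 0 0 + b * γ 1 0) * γ 1 1 - (a * γ 0 1 + b * γ 1 1) * γ 1 0 :=
    (congrArg Prod.fst hinv).symm
  have hb : b = -((a * γ 0 0 + b * γ 1 0) * γ 0 1) + (a * γ 0 1 + b * γ 1 1) * γ 0 0 :=
    (congrArg Prod.snd hinv).symm
  constructor
  · rw [ha]
    exact dvd_sub (Dvd.dvd.mul_right h1 _) (Dvd.dvd.mul_right h2 _)
  · rw [hb]
    exact dvd_add (dvd_neg.mpr (Dvd.dvd.mul_right h1 _)) (Dvd.dvd.mul_right h2 _)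

theorem e1Off_smul (γ : SL(2, ℤ)) (τ : ℍ) {z : ℂ} (hz : e1Off τ z) :
    e1Off ((γ • τ : ℍ) : ℂ) (z / e1J γ τ) := by
  intro p hp
  apply hz (e1Act γ p)
  rw [e1W_smul] at hp
  have hj := e1J_ne_zero γ τ
  field_simp at hp
  exact hp

/-- **E1-law**: the transformation law of the division values. -/
theorem stmtE1Law : StmtE1Law := by
  intro N _ a b h γ τ
  have hN : (N : ℂ) ≠ 0 := Nat.cast_ne_zero.mpr (NeZero.ne N)
  have hj := e1J_ne_zero γ τ
  set a' : ℤ := a * γ 0 0 + b * γ 1 0 with ha'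
  set b' : ℤ := a * γ 0 1 + b * γ 1 1 with hb'
  have h' : ¬ ((N : ℤ) ∣ a' ∧ (N : ℤ) ∣ b') := e1_not_dvd_act N a b γ h
  have hact : e1Act γ (a, b) = (a', b') := rfl
  rw [e1Zrow_eq N a b h (γ • τ), e1Zrow_eq N a' b' h' τ]
  -- the torsion point
  have hpt : e1Pt N a b ((γ • τ : ℍ) : ℂ) = e1Pt N a' b' τ / e1J γ τ := by
    rw [e1Pt_eq, e1Pt_eq, e1W_smul, hact]
    field_simp
  -- the quasi-periods
  set z₁ : ℂ := e1Pt N a' b' τ with hz₁
  have hoff : e1Off τ z₁ := e1Off_pt N a' b' h' τ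
  have hq := e1Zeta_add_lattice (γ • τ) (z₁ / e1J γ τ) (e1Off_smul γ τ hoff) (a, b)
  have hsum : z₁ / e1J γ τ + e1W ((γ • τ : ℍ) : ℂ) (a, b) = (z₁ + e1W τ (a', b')) / e1J γ τ := by
    rw [e1W_smul, hact]
    field_simp
  rw [hsum, e1Zeta_smul, e1Zeta_smul, e1Zeta_add_lattice τ z₁ hoff (a', b')] at hq
  rw [hpt, e1Zeta_smul]
  simp only at hq
  show _ = e1J γ τ * _
  field_simp
  field_simp at hq
  linear_combination hq

end Fermat.Agent.S48
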