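import Fermat.Agent.S48.E1.Asm
import Fermat.Agent.S48.E1.Zeta
import Fermat.Agent.S48.E1.RowBdd
import Fermat.Agent.S48.E1.RowQ
import Fermat.Agent.S48.E1.Gauss
import Fermat.Agent.S48.E1.Teich

/-!
# S48 / E1: the weight one Eisenstein series on `Γ₁(ℓ)` congruent to a unit mod `𝔪`

`stmtE1 : StmtE1` (of `S48/Plan2.lean`), UNCONDITIONAL: for a prime `ℓ ≥ 5` and a maximal ideal
`𝔪 ∋ ℓ` of `ℤ̄` there is a modular form `E` of weight one on `Γ₁(ℓ)` with nebentypus `ψ = ω⁻¹`
(the inverse of the Teichmüller character of `𝔪`), integral `q`-expansion, constant term a unit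
mod `𝔪` and all other coefficients in `𝔪`.

Pieces: `Zeta.lean` (helper56), `RowBdd.lean` (helper29), `RowQ.lean` (helper83),
`Gauss.lean` (helper85), `Teich.lean` (helper66), `Asm.lean` (helper56).
-/

namespace Fermat.Agent.S48

/-- **E1**, unconditional. -/
theorem stmtE1 : StmtE1 :=
  stmtE1OfPieces stmtE1Law stmtE1Per stmtE1RowMDiff stmtE1RowBdd stmtE1RowQ stmtE1Gauss
    stmtE1Teich

end Fermat.Agent.S48
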