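import Mathlib
import Fermat.Agent.S48.E1.Plan

/-!
# S48 / E1-asm: assembly of the weight one Eisenstein series

`stmtE1OfPieces : StmtE1OfPieces`: from the transformation law and the periodicity of the
division values `Z_{(a,b)} = e1Zrow N a b`, their holomorphy and boundedness at `i∞`, the
`q`-expansion of `Z_{(0,b)}`, the Gauss sum identity and the Teichmüller character, the modular
form `E = (ℓ / 2πi G) ∑_b ψ⁻¹(b) Z_{(0,b)}` of weight one on `Γ₁(ℓ)`.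
-/

set_option autoImplicit false

open Complex Filter Topology CongruenceSubgroup ModularForm
open UpperHalfPlane hiding I
open scoped Real MatrixGroups Manifold

noncomputable section

namespace Fermat.Agent.S48

/-- congruent indices give the same division value -/
theorem e1a_congr (hPer : StmtE1Per) (N : ℕ) [NeZero N] {a₁ b₁ a₂ b₂ : ℤ}
    (ha : (N : ℤ) ∣ a₁ - a₂) (hb : (N : ℤ) ∣ b₁ - b₂)
    (h : ¬ ((N : ℤ) ∣ a₂ ∧ (N : ℤ) ∣ b₂)) (τ : ℍ) :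
    e1Zrow N a₁ b₁ (τ : ℂ) = e1Zrow N a₂ b₂ (τ : ℂ) := by
  obtain ⟨k, hk⟩ := ha
  obtain ⟨l, hl⟩ := hb
  have := hPer N a₂ b₂ k l h τ
  rw [← this]
  congr 1 <;> linarith

theorem e1a_not_dvd_act (N : ℕ) (b : ℤ) (hb : ¬ (N : ℤ) ∣ b) (δ : SL(2, ℤ)) :
    ¬ ((N : ℤ) ∣ b * δ 1 0 ∧ (N : ℤ) ∣ b * δ 1 1) := by
  rintro ⟨h1, h2⟩
  apply hb
  have hdet : δ 0 0 * δ 1 1 - δ 0 1 * δ 1 0 = 1 := by
    have := δ.2
    rwa [Matrix.det_fin_two] at this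
  have : b = (b * δ 1 1) * δ 0 0 - (b * δ 1 0) * δ 0 1 := by
    linear_combination -b * hdet
  rw [this]
  exact dvd_sub (Dvd.dvd.mul_right h2 _) (Dvd.dvd.mul_right h1 _)

theorem e1a_not_dvd_zero (N : ℕ) (b : ℤ) (hb : ¬ (N : ℤ) ∣ b) :
    ¬ ((N : ℤ) ∣ 0 ∧ (N : ℤ) ∣ b) := fun h => hb h.2

/-- the slash action on a division value -/
theorem e1a_slash (hLaw : StmtE1Law) (N : ℕ) [NeZero N] (b : ℤ) (hb : ¬ (N : ℤ) ∣ b)
    (δ : SL(2, ℤ)) :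
    (fun τ : ℍ => e1Zrow N 0 b (τ : ℂ)) ∣[(1 : ℤ)] δ =
      fun τ : ℍ => e1Zrow N (b * δ 1 0) (b * δ 1 1) (τ : ℂ) := by
  funext τ
  rw [SL_slash_apply, hLaw N 0 b (e1a_not_dvd_zero N b hb) δ τ]
  have hd : denom δ τ = (δ 1 0 : ℂ) * (τ : ℂ) + (δ 1 1 : ℂ) := by
    rw [ModularGroup.denom_apply]
  have hne : (δ 1 0 : ℂ) * (τ : ℂ) + (δ 1 1 : ℂ) ≠ 0 := by
    rw [← hd]
    exact denom_ne_zero δ τ
  rw [hd, zero_mul, zero_add, zero_mul, zero_add, zpow_neg, zpow_one]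
  field_simp

theorem e1a_T_mem_Gamma1 (N : ℕ) : ModularGroup.T ∈ Gamma1 N := by
  rw [Gamma1_mem]
  simp [ModularGroup.T]

theorem e1a_one_mem_strictPeriods (N : ℕ) :
    (1 : ℝ) ∈ ((Gamma1 N : Subgroup SL(2, ℤ)) : Subgroup (GL (Fin 2) ℝ)).strictPeriods := by
  rw [Subgroup.strictPeriods_eq_zmultiples_one_of_T_mem (e1a_T_mem_Gamma1 N)]
  exact AddSubgroup.mem_zmultiples 1

/-- the division value `Z_{(0,b)}` as a modular form of weight one on `Γ₁(N)` -/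
def e1aForm (hLaw : StmtE1Law) (hPer : StmtE1Per) (hMD : StmtE1RowMDiff) (hBdd : StmtE1RowBdd)
    (N : ℕ) [NeZero N] (b : ℤ) (hb : ¬ (N : ℤ) ∣ b) : ModularForm (Gamma1 N) 1 where
  toFun τ := e1Zrow N 0 b (τ : ℂ)
  slash_action_eq' := by
    rintro _ ⟨γ, hγ, rfl⟩
    change (fun τ : ℍ => e1Zrow N 0 b (τ : ℂ)) ∣[(1 : ℤ)] γ = _
    rw [e1a_slash hLaw N b hb γ]
    funext τ
    obtain ⟨-, h11, h10⟩ := (Gamma1_mem N γ).mp hγ
    refine e1a_congr hPer N ?_ ?_ (e1a_not_dvd_zero N b hb) τ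
    · rw [sub_zero]
      exact Dvd.dvd.mul_left ((ZMod.intCast_zmod_eq_zero_iff_dvd _ N).mp h10) b
    · have : (N : ℤ) ∣ γ 1 1 - 1 := by
        rw [← ZMod.intCast_zmod_eq_zero_iff_dvd]
        push_cast
        rw [h11, sub_self]
      have h2 : b * γ 1 1 - b = b * (γ 1 1 - 1) := by ring
      rw [h2]
      exact Dvd.dvd.mul_left this b
  holo' := hMD N 0 b le_rfl (by exact_mod_cast Nat.pos_of_ne_zero (NeZero.ne N))
    (e1a_not_dvd_zero N b hb)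
  bdd_at_cusps' := by
    intro c hc
    rw [Subgroup.IsArithmetic.isCusp_iff_isCusp_SL2Z] at hc
    rw [OnePoint.isBoundedAt_iff_forall_SL2Z hc]
    intro δ _
    rw [e1a_slash hLaw N b hb δ]
    have hN : (0 : ℤ) < N := by exact_mod_cast Nat.pos_of_ne_zero (NeZero.ne N)
    have hnd := e1a_not_dvd_act N b hb δ
    have hnd' : ¬ ((N : ℤ) ∣ (b * δ 1 0) % N ∧ (N : ℤ) ∣ b * δ 1 1) := by
      rintro ⟨h1, h2⟩
      exact hnd ⟨(Int.dvd_iff_emod_eq_zero).mpr (by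
        have := (Int.dvd_iff_emod_eq_zero).mp h1
        rwa [Int.emod_emod_of_dvd _ (dvd_refl _)] at this), h2⟩
    have hb := hBdd N ((b * δ 1 0) % N) (b * δ 1 1) (Int.emod_nonneg _ hN.ne')
      (Int.emod_lt_of_pos _ hN) hnd'
    have heq : (fun τ : ℍ => e1Zrow N (b * δ 1 0) (b * δ 1 1) (τ : ℂ)) =
        fun τ : ℍ => e1Zrow N ((b * δ 1 0) % N) (b * δ 1 1) (τ : ℂ) := by
      funext τ
      refine e1a_congr hPer N ?_ ?_ hnd' τ
      · exact ⟨(b * δ 1 0) / N, by have := Int.emod_add_mul_ediv (b * δ 1 0) N; linarith⟩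
      · simp
    rw [heq]
    exact hb


theorem e1aForm_apply (hLaw : StmtE1Law) (hPer : StmtE1Per) (hMD : StmtE1RowMDiff)
    (hBdd : StmtE1RowBdd) (N : ℕ) [NeZero N] (b : ℤ) (hb : ¬ (N : ℤ) ∣ b) (τ : ℍ) :
    e1aForm hLaw hPer hMD hBdd N b hb τ = e1Zrow N 0 b (τ : ℂ) := rfl

theorem e1a_dvd_val_iff (N : ℕ) [NeZero N] (b : ZMod N) :
    (N : ℤ) ∣ ((b.val : ℕ) : ℤ) ↔ b = 0 := by
  rw [← ZMod.intCast_zmod_eq_zero_iff_dvd]
  push_cast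
  rw [ZMod.natCast_zmod_val]

/-- the family `b ↦ Z_{(0,b)}` indexed by `ZMod N` (zero for `b = 0`) -/
def e1aFam (hLaw : StmtE1Law) (hPer : StmtE1Per) (hMD : StmtE1RowMDiff) (hBdd : StmtE1RowBdd)
    (N : ℕ) [NeZero N] (b : ZMod N) : ModularForm (Gamma1 N) 1 :=
  if h : (N : ℤ) ∣ ((b.val : ℕ) : ℤ) then 0 else e1aForm hLaw hPer hMD hBdd N _ h

theorem e1aFam_zero (hLaw : StmtE1Law) (hPer : StmtE1Per) (hMD : StmtE1RowMDiff)
    (hBdd : StmtE1RowBdd) (N : ℕ) [NeZero N] : e1aFam hLaw hPer hMD hBdd N 0 = 0 := by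
  unfold e1aFam
  rw [dif_pos ((e1a_dvd_val_iff N 0).mpr rfl)]

theorem e1aFam_apply (hLaw : StmtE1Law) (hPer : StmtE1Per) (hMD : StmtE1RowMDiff)
    (hBdd : StmtE1RowBdd) (N : ℕ) [NeZero N] (b : ZMod N) (hb : b ≠ 0) (τ : ℍ) :
    e1aFam hLaw hPer hMD hBdd N b τ = e1Zrow N 0 ((b.val : ℕ) : ℤ) (τ : ℂ) := by
  unfold e1aFam
  rw [dif_neg (fun h => hb ((e1a_dvd_val_iff N b).mp h))]
  rfl

theorem e1a_sum_apply {ι : Type*} (s : Finset ι) (N : ℕ) (f : ι → ModularForm (Gamma1 N) 1)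
    (τ : ℍ) : (∑ i ∈ s, f i) τ = ∑ i ∈ s, f i τ := by
  classical
  induction s using Finset.induction_on with
  | empty => simp
  | insert a s ha ih =>
    rw [Finset.sum_insert ha, Finset.sum_insert ha, ← ih]
    rfl

/-- the lower right entry of an element of `Γ₀(N)` is a unit modulo `N` -/
theorem e1a_isUnit_d (N : ℕ) (γ : SL(2, ℤ)) (hγ : γ ∈ Gamma0 N) :
    IsUnit (((γ 1 1 : ℤ) : ZMod N)) := by
  have hdet : γ 0 0 * γ 1 1 - γ 0 1 * γ 1 0 = 1 := by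
    have := γ.2
    rwa [Matrix.det_fin_two] at this
  have h10 : ((γ 1 0 : ℤ) : ZMod N) = 0 := Gamma0_mem.mp hγ
  have h := congrArg (Int.cast : ℤ → ZMod N) hdet
  push_cast at h
  rw [h10, mul_zero, sub_zero] at h
  exact IsUnit.of_mul_eq_one _ (by rw [mul_comm]; exact h)

/-- the action of `Γ₀(N)` on the family -/
theorem e1aFam_smul (hLaw : StmtE1Law) (hPer : StmtE1Per) (hMD : StmtE1RowMDiff)
    (hBdd : StmtE1RowBdd) (N : ℕ) [NeZero N] (γ : SL(2, ℤ)) (hγ : γ ∈ Gamma0 N)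
    (b : ZMod N) (τ : ℍ) :
    e1aFam hLaw hPer hMD hBdd N b (γ • τ) =
      ((γ 1 0 : ℂ) * (τ : ℂ) + (γ 1 1 : ℂ)) *
        e1aFam hLaw hPer hMD hBdd N (b * ((γ 1 1 : ℤ) : ZMod N)) τ := by
  by_cases hb : b = 0
  · subst hb
    rw [zero_mul, e1aFam_zero]
    simp
  · have hu := e1a_isUnit_d N γ hγ
    have hbd : b * ((γ 1 1 : ℤ) : ZMod N) ≠ 0 := by
      intro h
      apply hb
      have := congrArg (· * (hu.unit⁻¹ : (ZMod N)ˣ).1) h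
      simpa [mul_assoc] using this
    rw [e1aFam_apply _ _ _ _ N b hb, e1aFam_apply _ _ _ _ N _ hbd]
    have hnd : ¬ (N : ℤ) ∣ ((b.val : ℕ) : ℤ) := fun h => hb ((e1a_dvd_val_iff N b).mp h)
    have hnd' : ¬ (N : ℤ) ∣ (((b * ((γ 1 1 : ℤ) : ZMod N)).val : ℕ) : ℤ) :=
      fun h => hbd ((e1a_dvd_val_iff N _).mp h)
    rw [hLaw N 0 _ (e1a_not_dvd_zero N _ hnd) γ τ, zero_mul, zero_add, zero_mul, zero_add]
    congr 1
    refine e1a_congr hPer N ?_ ?_ (e1a_not_dvd_zero N _ hnd') τ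
    · rw [sub_zero]
      exact Dvd.dvd.mul_left ((ZMod.intCast_zmod_eq_zero_iff_dvd _ N).mp (Gamma0_mem.mp hγ)) _
    · rw [← ZMod.intCast_zmod_eq_zero_iff_dvd]
      push_cast
      rw [ZMod.natCast_zmod_val, ZMod.natCast_zmod_val, sub_self]


/-- **E1-asm**: the weight one Eisenstein series from its pieces. -/
theorem stmtE1OfPieces : StmtE1OfPieces := by
  intro hLaw hPer hMD hBdd hQ hGauss hTeich ℓ _ hℓ h5 𝔪 h𝔪 hℓ𝔪
  have : Fact ℓ.Prime := ⟨hℓ⟩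
  obtain ⟨ψ, c, hodd, hteich, hc, hc0, hcn⟩ := hTeich ℓ hℓ (by omega) 𝔪 h𝔪 hℓ𝔪
  obtain ⟨G, hG, hGs⟩ := hGauss ℓ hℓ ψ hodd
  have hℓ0 : (ℓ : ℂ) ≠ 0 := Nat.cast_ne_zero.mpr hℓ.ne_zero
  have hπ : (π : ℂ) ≠ 0 := by exact_mod_cast Real.pi_ne_zero
  set K : ℂ := (ℓ : ℂ) / (2 * π * I * G) with hK
  have hK1 : K * (2 * π * I * G / ℓ) = 1 := by
    rw [hK]
    field_simp [Complex.I_ne_zero]
  set Fam : ZMod ℓ → ModularForm (Gamma1 ℓ) 1 := e1aFam hLaw hPer hMD hBdd ℓ with hFam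
  set E : ModularForm (Gamma1 ℓ) 1 := K • ∑ b : ZMod ℓ, ψ⁻¹ b • Fam b with hEdef
  have hE : ∀ τ : ℍ, E τ = K * ∑ b : ZMod ℓ, ψ⁻¹ b * Fam b τ := by
    intro τ
    have h1 : E τ = K • ((∑ b : ZMod ℓ, ψ⁻¹ b • Fam b) τ) := rfl
    rw [h1, e1a_sum_apply, smul_eq_mul]
    rfl
  refine ⟨ψ, E, c, hteich, ?_, ?_, hc0, hcn⟩
  · -- nebentypus
    intro γ hγ z
    rw [hE, hE, pow_one]
    simp_rw [hFam, e1aFam_smul hLaw hPer hMD hBdd ℓ γ hγ]
    rw [← hFam]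
    set d : ZMod ℓ := ((γ 1 1 : ℤ) : ZMod ℓ) with hd
    have hu : IsUnit d := e1a_isUnit_d ℓ γ hγ
    have hψd : ψ d ≠ 0 := (IsUnit.map ψ hu).ne_zero
    have h1 : ∀ b : ZMod ℓ, ψ⁻¹ b = ψ d * ψ⁻¹ (b * d) := by
      intro b
      rw [MulChar.inv_apply_eq_inv', MulChar.inv_apply_eq_inv', map_mul, mul_inv]
      field_simp
    have h2 : ∑ b : ZMod ℓ, ψ⁻¹ (b * d) * Fam (b * d) z = ∑ b : ZMod ℓ, ψ⁻¹ b * Fam b z :=
      Fintype.sum_equiv (Units.mulRight hu.unit) (fun b => ψ⁻¹ (b * d) * Fam (b * d) z)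
        (fun b => ψ⁻¹ b * Fam b z) (fun b => rfl)
    have h3 : ∑ b : ZMod ℓ, ψ⁻¹ b * (((γ 1 0 : ℂ) * (z : ℂ) + (γ 1 1 : ℂ)) * Fam (b * d) z) =
        ψ d * ((γ 1 0 : ℂ) * (z : ℂ) + (γ 1 1 : ℂ)) *
          ∑ b : ZMod ℓ, ψ⁻¹ (b * d) * Fam (b * d) z := by
      rw [Finset.mul_sum]
      refine Finset.sum_congr rfl fun b _ => ?_
      rw [h1 b]
      ring
    rw [h3, h2]
    ring
  · -- the `q`-expansion
    intro n
    rw [hc n]
    refine ModularFormClass.qExpansion_coeff_unique (f := E) (c := e1IntCoeff ℓ ψ) one_pos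
      (e1a_one_mem_strictPeriods ℓ) (fun τ => ?_) n
    have hq : Function.Periodic.qParam 1 (τ : ℂ) = cexp (2 * π * I * τ) := by
      simp [Function.Periodic.qParam]
    rw [hq, hE]
    have hterm : ∀ b ∈ (Finset.univ : Finset (ZMod ℓ)),
        HasSum (fun m : ℕ => ψ⁻¹ b * (e1Coeff ℓ ((b.val : ℕ) : ℤ) m * cexp (2 * π * I * τ) ^ m))
          (ψ⁻¹ b * Fam b τ) := by
      intro b _
      by_cases hb : b = 0
      · subst hb
        have h0 : ψ⁻¹ (0 : ZMod ℓ) = 0 := MulChar.map_zero _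
        simp only [h0, zero_mul]
        exact hasSum_zero
      · rw [hFam, e1aFam_apply _ _ _ _ ℓ b hb]
        exact (hQ ℓ _ (fun h => hb ((e1a_dvd_val_iff ℓ b).mp h)) τ).mul_left _
    have hsum := (hasSum_sum hterm).mul_left K
    refine hsum.congr_fun ?_
    intro m
    rw [smul_eq_mul, ← one_mul (e1IntCoeff ℓ ψ m), ← hK1, mul_assoc K, ← hGs m, mul_assoc K,
      Finset.sum_mul]
    congr 1
    refine Finset.sum_congr rfl fun b _ => ?_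
    ring

end Fermat.Agent.S48
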