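import Fermat.Agent.S48.E1.Plan

/-!
# S48 / E1: shim

THE interface of S48/E1 is `Fermat/Agent/S48/E1/Plan.lean` (`e1Zrow`, `e1Coeff`, `e1IntCoeff`,
`StmtE1Law`, `StmtE1Per`, `StmtE1RowMDiff`, `StmtE1RowBdd`, `StmtE1RowQ`, `StmtE1Gauss`,
`StmtE1Teich`, `StmtE1OfPieces`).  This file only re-exports it (it was a temporary copy while
`Plan.lean` was overwritten); import `Plan.lean` directly.
-/
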